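import Mathlib
import Fermat.Prelude.Def_CuspForm_HeckeAlgebra

set_option autoImplicit false

namespace Fermat.Agent.S22

open UpperHalfPlane Polynomial
open scoped MatrixGroups ModularForm Manifold

noncomputable section

/-- `F` is a primitive of `g` on the upper half-plane tending to `0` at `i∞`. -/
def IsDecayPrim (g F : ℍ → ℂ) : Prop :=
  (∀ τ : ℍ, HasDerivAt (F ∘ ofComplex) (g τ) (τ : ℂ)) ∧ IsZeroAtImInfty F

/-- The decaying primitive of `g` (junk value `0` when there is none). -/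
def dprim (g : ℍ → ℂ) : ℍ → ℂ :=
  open scoped Classical in if h : ∃ F, IsDecayPrim g F then h.choose else 0

/-- Holomorphic on `ℍ`, periodic of period `h`, zero at `i∞`. -/
def IsDecayHolo (h : ℝ) (g : ℍ → ℂ) : Prop :=
  MDiff g ∧ (∀ τ : ℍ, g (h +ᵥ τ) = g τ) ∧ IsZeroAtImInfty g

/-- The weight `-n` (right) action of a real `2 × 2` matrix on polynomials of degree `≤ n`:
`P ↦ (cX+d)^n P((aX+b)/(cX+d))`. -/
def polyAct (n : ℕ) (g : GL (Fin 2) ℝ) : ℂ[X] →ₗ[ℂ] ℂ[X] where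
  toFun P := ∑ j ∈ Finset.range (n + 1), P.coeff j •
    ((C ((g 0 0 : ℝ) : ℂ) * X + C ((g 0 1 : ℝ) : ℂ)) ^ j *
      (C ((g 1 0 : ℝ) : ℂ) * X + C ((g 1 1 : ℝ) : ℂ)) ^ (n - j))
  map_add' P Q := by simp [add_smul, Finset.sum_add_distrib]
  map_smul' c P := by simp [mul_smul, Finset.smul_sum]

/-- The polynomial-valued Eichler integral: a primitive of `f(τ) (X - τ)^n`. -/
def eichlerPoly (n : ℕ) (f : ℍ → ℂ) (τ : ℍ) : ℂ[X] :=
  ∑ m ∈ Finset.range (n + 1),
    C ((n.descFactorial m : ℂ) * (dprim^[m + 1] f) τ) * (X - C (τ : ℂ)) ^ (n - m)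

/-- The period polynomial cocycle. -/
def periodPoly (n : ℕ) (f : ℍ → ℂ) (g : GL (Fin 2) ℝ) : ℂ[X] :=
  polyAct n g (eichlerPoly n f (g • I)) - eichlerPoly n f I

/-- All entries of the matrix are integers. -/
def IsIntegralMat (g : GL (Fin 2) ℝ) : Prop := ∀ i j, ∃ z : ℤ, (g i j : ℝ) = z

end

end Fermat.Agent.S22
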