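import Mathlib
import Fermat.Agent.S22.Defs

set_option autoImplicit false

open Complex Function Filter Metric Set
open UpperHalfPlane hiding I
open scoped Real Manifold Topology

namespace Fermat.Agent.S22

local notation "𝕢" => Function.Periodic.qParam

lemma hasDerivAt_qParam (h : ℝ) (z : ℂ) :
    HasDerivAt (𝕢 h) (𝕢 h z * (2 * π * I / h)) z := by
  have := (((hasDerivAt_id z).const_mul (2 * π * I)).div_const (h : ℂ)).cexp
  simpa only [id_eq, mul_one] using! this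

lemma qParam_add_period {h : ℝ} (hh : h ≠ 0) (w : ℂ) : 𝕢 h (w + h) = 𝕢 h w := by
  have hhC : (h : ℂ) ≠ 0 := by exact_mod_cast hh
  simp only [Function.Periodic.qParam]
  rw [show 2 * π * I * (w + h) / h = 2 * π * I * w / h + 2 * π * I by field_simp, Complex.exp_add,
    Complex.exp_two_pi_mul_I, mul_one]

/-- Existence of a primitive vanishing at `i∞` for a holomorphic `h`-periodic function on the
upper half plane which vanishes at `i∞`. -/
theorem exists_decaying_primitive {h : ℝ} (hh : 0 < h) {g : ℍ → ℂ}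
    (hper : Function.Periodic (g ∘ ofComplex) h) (hhol : MDiff g)
    (hzero : IsZeroAtImInfty g) :
    ∃ G : ℍ → ℂ, Function.Periodic (G ∘ ofComplex) h ∧ MDiff G ∧ IsZeroAtImInfty G ∧
      ∀ τ : ℍ, HasDerivAt (G ∘ ofComplex) (g τ) (τ : ℂ) := by
  set c : ℂ → ℂ := cuspFunction h g with hc_def
  have hc : DifferentiableOn ℂ c (ball 0 1) :=
    differentiableOn_cuspFunction_ball hh hper hhol hzero.isBoundedAtImInfty
  have hc0 : c 0 = 0 := by
    have := analyticAt_cuspFunction_zero hh hper hhol hzero.isBoundedAtImInfty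
    rw [hc_def, cuspFunction_apply_zero hh this hper, hzero.valueAtInfty_eq_zero]
  have hball : ball (0 : ℂ) 1 ∈ 𝓝 (0 : ℂ) := ball_mem_nhds 0 one_pos
  have hd : DifferentiableOn ℂ (dslope c 0) (ball 0 1) := (differentiableOn_dslope hball).mpr hc
  obtain ⟨Ψ, hΨ0, hΨ⟩ := (hd.isExactOn_ball).with_val_at (0 : ℂ) (0 : ℂ)
  have hhC : (h : ℂ) ≠ 0 := by exact_mod_cast hh.ne'
  have h2pi : (2 * π * I : ℂ) ≠ 0 := two_pi_I_ne_zero
  -- the key derivative computation on the open upper half plane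
  have key : ∀ z : ℂ, 0 < z.im →
      HasDerivAt (fun w : ℂ => (h / (2 * π * I)) * Ψ (𝕢 h w)) ((g ∘ ofComplex) z) z := by
    intro z hz
    have hq : ‖𝕢 h z‖ < 1 := Function.Periodic.norm_qParam_lt_one hh hz
    have hq0 : 𝕢 h z ≠ 0 := Function.Periodic.qParam_ne_zero z
    have h1 := hΨ (𝕢 h z) (mem_ball_zero_iff.mpr hq)
    have h2 := (h1.comp z (hasDerivAt_qParam h z)).const_mul ((h : ℂ) / (2 * π * I))
    have hcq : c (𝕢 h z) = (g ∘ ofComplex) z := Function.Periodic.eq_cuspFunction hh.ne' hper z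
    have h3 : HasDerivAt (fun w : ℂ => (h / (2 * π * I)) * Ψ (𝕢 h w))
        (↑h / (2 * ↑π * I) * (dslope c 0 (𝕢 h z) * (𝕢 h z * (2 * ↑π * I / ↑h)))) z := h2
    refine h3.congr_deriv ?_
    rw [dslope_of_ne _ hq0, slope_def_field, hc0, hcq]
    field_simp
    ring
  refine ⟨fun τ => (h / (2 * π * I)) * Ψ (𝕢 h τ), ?_, ?_, ?_, ?_⟩
  · -- periodicity
    intro w
    by_cases hw : 0 < w.im
    · have hw' : 0 < (w + h).im := by simpa using hw
      simp only [comp_apply, ofComplex_apply_of_im_pos hw', ofComplex_apply_of_im_pos hw]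
      congr 2
      exact qParam_add_period hh.ne' w
    · have hw1 : w.im ≤ 0 := not_lt.mp hw
      have hw' : (w + h).im ≤ 0 := by simpa using hw1
      simp only [comp_apply, ofComplex_apply_of_im_nonpos hw', ofComplex_apply_of_im_nonpos hw1]
  · -- holomorphy
    rw [UpperHalfPlane.mdifferentiable_iff]
    intro z hz
    have hz' : 0 < z.im := hz
    have h1 : DifferentiableAt ℂ (fun w : ℂ => (h / (2 * π * I)) * Ψ (𝕢 h w)) z :=
      (key z hz').differentiableAt
    refine (h1.congr_of_eventuallyEq ?_).differentiableWithinAt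
    filter_upwards [isOpen_upperHalfPlaneSet.mem_nhds hz'] with w hw
    simp only [comp_apply, ofComplex_apply_of_im_pos hw, UpperHalfPlane.coe_mk]
  · -- vanishing at infinity
    have hΨc : ContinuousAt Ψ 0 := (hΨ 0 (mem_ball_self one_pos)).continuousAt
    have h1 : Tendsto (fun τ : ℍ => Ψ (𝕢 h τ)) atImInfty (𝓝 (Ψ 0)) :=
      hΨc.tendsto.comp (qParam_tendsto_atImInfty hh)
    have h2 := h1.const_mul ((h : ℂ) / (2 * π * I))
    rw [hΨ0, mul_zero] at h2
    exact h2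
  · -- derivative
    intro τ
    have h1 := key τ τ.im_pos
    have : (g ∘ ofComplex) (τ : ℂ) = g τ := by simp
    rw [this] at h1
    refine h1.congr_of_eventuallyEq ?_
    filter_upwards [isOpen_upperHalfPlaneSet.mem_nhds τ.im_pos] with w hw
    simp only [comp_apply, ofComplex_apply_of_im_pos hw, UpperHalfPlane.coe_mk]

/-- Two functions on the upper half plane with the same complex derivative differ by a constant. -/
theorem exists_eq_add_const_of_hasDerivAt {G₁ G₂ g : ℍ → ℂ}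
    (h1 : ∀ τ : ℍ, HasDerivAt (G₁ ∘ ofComplex) (g τ) (τ : ℂ))
    (h2 : ∀ τ : ℍ, HasDerivAt (G₂ ∘ ofComplex) (g τ) (τ : ℂ)) :
    ∃ a : ℂ, ∀ τ : ℍ, G₁ τ = G₂ τ + a := by
  have hd1 : DifferentiableOn ℂ (G₁ ∘ ofComplex) upperHalfPlaneSet := fun z hz =>
    (h1 ⟨z, hz⟩).differentiableAt.differentiableWithinAt
  have hd2 : DifferentiableOn ℂ (G₂ ∘ ofComplex) upperHalfPlaneSet := fun z hz =>
    (h2 ⟨z, hz⟩).differentiableAt.differentiableWithinAt
  have hderiv : upperHalfPlaneSet.EqOn (deriv (G₁ ∘ ofComplex)) (deriv (G₂ ∘ ofComplex)) := by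
    intro z hz
    rw [(h1 ⟨z, hz⟩).deriv, (h2 ⟨z, hz⟩).deriv]
  obtain ⟨a, ha⟩ := isOpen_upperHalfPlaneSet.exists_eq_add_of_deriv_eq
    (Convex.isPreconnected (convex_halfSpace_im_gt 0)) hd1 hd2 hderiv
  refine ⟨a, fun τ => ?_⟩
  have := ha τ.im_pos
  simpa using this

/-- Uniqueness of the primitive vanishing at `i∞`. -/
theorem eq_of_hasDerivAt_of_isZeroAtImInfty {G₁ G₂ g : ℍ → ℂ}
    (h1 : ∀ τ : ℍ, HasDerivAt (G₁ ∘ ofComplex) (g τ) (τ : ℂ))
    (h2 : ∀ τ : ℍ, HasDerivAt (G₂ ∘ ofComplex) (g τ) (τ : ℂ))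
    (hz1 : IsZeroAtImInfty G₁) (hz2 : IsZeroAtImInfty G₂) : G₁ = G₂ := by
  obtain ⟨a, ha⟩ := exists_eq_add_const_of_hasDerivAt h1 h2
  have h3 : Tendsto (fun τ : ℍ => G₁ τ - G₂ τ) atImInfty (𝓝 (0 - 0)) := hz1.sub hz2
  have h4 : (fun τ : ℍ => G₁ τ - G₂ τ) = fun _ => a := by
    funext τ; rw [ha τ]; ring
  rw [h4, sub_zero] at h3
  have ha0 : a = 0 := tendsto_nhds_unique tendsto_const_nhds h3
  funext τ
  rw [ha τ, ha0, add_zero]

/-- Periodicity in the `+ᵥ` form gives periodicity of `g ∘ ofComplex`. -/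
lemma periodic_comp_ofComplex_of_vadd {h : ℝ} {g : ℍ → ℂ} (hg : ∀ τ : ℍ, g (h +ᵥ τ) = g τ) :
    Function.Periodic (g ∘ ofComplex) h := by
  intro w
  by_cases hw : 0 < w.im
  · have hw' : 0 < (w + h).im := by simpa using hw
    simp only [comp_apply, ofComplex_apply_of_im_pos hw', ofComplex_apply_of_im_pos hw]
    rw [← hg ⟨w, hw⟩]
    congr 1
    ext
    simp [add_comm]
  · have hw1 : w.im ≤ 0 := not_lt.mp hw
    have hw' : (w + h).im ≤ 0 := by simpa using hw1
    simp only [comp_apply, ofComplex_apply_of_im_nonpos hw', ofComplex_apply_of_im_nonpos hw1]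

/-- Periodicity of `G ∘ ofComplex` gives periodicity in the `+ᵥ` form. -/
lemma vadd_of_periodic_comp_ofComplex {h : ℝ} {G : ℍ → ℂ}
    (hG : Function.Periodic (G ∘ ofComplex) h) (τ : ℍ) : G (h +ᵥ τ) = G τ := by
  have h1 := hG (τ : ℂ)
  simp only [comp_apply, ofComplex_apply] at h1
  rw [← h1]
  congr 1
  have hpos : 0 < ((τ : ℂ) + h).im := by simpa using τ.im_pos
  rw [ofComplex_apply_of_im_pos hpos]
  ext
  simp [add_comm]

theorem IsDecayPrim.unique {g F₁ F₂ : ℍ → ℂ} (h₁ : IsDecayPrim g F₁) (h₂ : IsDecayPrim g F₂) :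
    F₁ = F₂ :=
  eq_of_hasDerivAt_of_isZeroAtImInfty h₁.1 h₂.1 h₁.2 h₂.2

theorem exists_isDecayPrim {h : ℝ} (hh : 0 < h) {g : ℍ → ℂ} (hg : IsDecayHolo h g) :
    ∃ F, IsDecayPrim g F ∧ IsDecayHolo h F := by
  obtain ⟨hhol, hper, hzero⟩ := hg
  obtain ⟨G, hGper, hGhol, hGzero, hGderiv⟩ :=
    exists_decaying_primitive hh (periodic_comp_ofComplex_of_vadd hper) hhol hzero
  exact ⟨G, ⟨hGderiv, hGzero⟩, hGhol, vadd_of_periodic_comp_ofComplex hGper, hGzero⟩

end Fermat.Agent.S22
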