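import Mathlib

set_option autoImplicit false

namespace Fermat.Agent.S22

/-- The `ℤ`-span of the values of a "cocycle with integral coefficients" on a finitely
generated group is finitely generated. -/
theorem span_fg_of_cocycle {V : Type*} [AddCommGroup V] [Module ℂ V] {G : Type*} [Group G]
    [Group.FG G] (d : ℕ) (c : G → Fin d → (V →ₗ[ℂ] ℂ)) (A : G → Matrix (Fin d) (Fin d) ℤ)
    (hc : ∀ γ δ i, c (γ * δ) i = ∑ j, (A δ i j) • c γ j + c δ i) :
    (Submodule.span ℤ (Set.range (fun p : G × Fin d => c p.1 p.2))).FG := by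
  obtain ⟨S, hS, hSfin⟩ := Group.fg_iff.mp (inferInstance : Group.FG G)
  set T : Set (V →ₗ[ℂ] ℂ) :=
    (fun p : G × Fin d => c p.1 p.2) '' ((insert 1 S) ×ˢ (Set.univ : Set (Fin d))) with hT
  have hTfin : T.Finite := ((hSfin.insert 1).prod Set.finite_univ).image _
  set L0 : Submodule ℤ (V →ₗ[ℂ] ℂ) := Submodule.span ℤ T with hL0
  have hgen : ∀ s ∈ insert 1 S, ∀ i, c s i ∈ L0 := fun s hs i =>
    Submodule.subset_span ⟨(s, i), ⟨hs, Set.mem_univ _⟩, rfl⟩
  have hall : ∀ γ : G, ∀ i, c γ i ∈ L0 := by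
    intro γ
    have hγ : γ ∈ Subgroup.closure S := by rw [hS]; exact Subgroup.mem_top γ
    induction hγ using Subgroup.closure_induction with
    | mem x hx => exact hgen x (Set.mem_insert_of_mem _ hx)
    | one => exact hgen 1 (Set.mem_insert _ _)
    | mul x y _ _ hx hy =>
      intro i
      rw [hc x y i]
      exact L0.add_mem (L0.sum_mem fun j _ => L0.smul_mem _ (hx j)) (hy i)
    | inv x _ hx =>
      intro i
      have h1 := hc x x⁻¹ i
      rw [mul_inv_cancel] at h1
      have h2 : c x⁻¹ i = c 1 i - ∑ j, (A x⁻¹ i j) • c x j := by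
        rw [h1]; abel
      rw [h2]
      exact L0.sub_mem (hgen 1 (Set.mem_insert _ _) i)
        (L0.sum_mem fun j _ => L0.smul_mem _ (hx j))
  have heq : Submodule.span ℤ (Set.range (fun p : G × Fin d => c p.1 p.2)) = L0 := by
    apply le_antisymm
    · rw [Submodule.span_le]
      rintro _ ⟨p, rfl⟩
      exact hall p.1 p.2
    · apply Submodule.span_mono
      rintro _ ⟨p, _, rfl⟩
      exact ⟨p, rfl⟩
  rw [heq]
  exact Submodule.fg_span hTfin

end Fermat.Agent.S22
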