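import Fermat.Agent.S22.Defs

set_option autoImplicit false

namespace Fermat.Agent.S22

open UpperHalfPlane Polynomial CongruenceSubgroup Matrix.SpecialLinearGroup
open scoped MatrixGroups ModularForm Manifold

noncomputable section

/-! ## E0. cusp forms are in the class -/

theorem slash_eq_of_mem_Gamma0 {N : ℕ} {k : ℤ} (f : CuspForm (Gamma0 N) k) {γ : SL(2, ℤ)}
    (hγ : γ ∈ Gamma0 N) : ⇑f ∣[k] (mapGL ℝ γ) = ⇑f := by
  apply SlashInvariantFormClass.slash_action_eq f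
  exact Subgroup.mem_map_of_mem _ hγ

theorem isCusp_mapGL_smul_infty {N : ℕ} [NeZero N] (δ : SL(2, ℤ)) :
    IsCusp (mapGL ℝ δ • OnePoint.infty) (Gamma0 N : Subgroup (GL (Fin 2) ℝ)) := by
  rw [Subgroup.IsArithmetic.isCusp_iff_isCusp_SL2Z, isCusp_SL2Z_iff']
  exact ⟨δ, rfl⟩

theorem isZeroAtImInfty_cuspForm_slash {N : ℕ} [NeZero N] {k : ℤ} (f : CuspForm (Gamma0 N) k)
    (δ : SL(2, ℤ)) : IsZeroAtImInfty (⇑f ∣[k] (mapGL ℝ δ)) := by
  have h := CuspFormClass.zero_at_cusps f (isCusp_mapGL_smul_infty (N := N) δ)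
  exact (OnePoint.isZeroAt_iff rfl).mp h

theorem Gamma_le_Gamma0 (N : ℕ) : Gamma N ≤ Gamma0 N := by
  intro γ hγ
  rw [Gamma_mem] at hγ
  rw [Gamma0_mem]
  exact hγ.2.2.1

theorem isDecayHolo_cuspForm {N : ℕ} [NeZero N] {k : ℤ} (f : CuspForm (Gamma0 N) k) :
    IsDecayHolo 1 ⇑f := by
  refine ⟨CuspFormClass.holo f, fun τ => ?_, ?_⟩
  · apply SlashInvariantForm.vAdd_apply_of_mem_strictPeriods f τ
    rw [strictPeriods_Gamma0]
    exact AddSubgroup.mem_zmultiples 1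
  · have h := isZeroAtImInfty_cuspForm_slash f 1
    simpa using h

open ConjAct Pointwise in
theorem isDecayHolo_cuspForm_slash {N : ℕ} [NeZero N] {k : ℤ} (f : CuspForm (Gamma0 N) k)
    (δ : SL(2, ℤ)) : IsDecayHolo N (⇑f ∣[k] (mapGL ℝ δ)) := by
  refine ⟨(CuspFormClass.holo f).slash k _, fun τ => ?_, isZeroAtImInfty_cuspForm_slash f δ⟩
  have hmem : ((N : ℕ) : ℝ) ∈
      (ConjAct.toConjAct (mapGL ℝ δ)⁻¹ • (Gamma0 N : Subgroup (GL (Fin 2) ℝ))).strictPeriods := by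
    have hN : ((N : ℕ) : ℝ) ∈ (Gamma N : Subgroup (GL (Fin 2) ℝ)).strictPeriods := by
      rw [strictPeriods_Gamma]
      exact AddSubgroup.mem_zmultiples _
    rw [Subgroup.mem_strictPeriods_iff] at hN ⊢
    obtain ⟨t, ht, hteq⟩ := Subgroup.mem_map.mp hN
    rw [map_inv, Subgroup.mem_inv_pointwise_smul_iff, ConjAct.toConjAct_smul]
    refine Subgroup.mem_map.mpr ⟨δ * t * δ⁻¹, Gamma_le_Gamma0 N ?_, ?_⟩
    · exact (Gamma_normal N).conj_mem t ht δ
    · rw [map_mul, map_mul, map_inv, hteq]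
  have := SlashInvariantForm.vAdd_apply_of_mem_strictPeriods
    (SlashInvariantForm.translate f (mapGL ℝ δ)) τ hmem
  rw [SlashInvariantForm.coe_translate] at this
  exact this

end

end Fermat.Agent.S22
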