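import Fermat.Agent.S22.EichlerPoly
import Fermat.Agent.S22.CuspFormFacts

set_option autoImplicit false

namespace Fermat.Agent.S22

open UpperHalfPlane Polynomial CongruenceSubgroup Matrix.SpecialLinearGroup
open scoped MatrixGroups ModularForm Manifold

noncomputable section

/-- determinant of an upper triangular matrix with positive diagonal is positive -/
lemma hr_det_pos_of_upper (α : GL (Fin 2) ℝ) (hα : α 1 0 = 0) (ha : 0 < α 0 0) (hd : 0 < α 1 1) :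
    0 < α.det.val := by
  rw [Matrix.GeneralLinearGroup.val_det_apply, Matrix.det_fin_two, hα, mul_zero, sub_zero]
  exact mul_pos ha hd

lemma hr_det_mapGL_pos (γ : SL(2, ℤ)) : 0 < (mapGL ℝ γ : GL (Fin 2) ℝ).det.val := by
  simp

/-- the abstract Hecke relation -/
theorem periodPoly_sum_slash (n : ℕ) {ι : Type} [Fintype ι] (α : ι → GL (Fin 2) ℝ)
    (hα : ∀ x, α x 1 0 = 0 ∧ 0 < α x 0 0 ∧ 0 < α x 1 1)
    (σ : Equiv.Perm ι) (γ : SL(2, ℤ)) (γ' : ι → SL(2, ℤ))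
    (hrel : ∀ x, α x * mapGL ℝ γ = mapGL ℝ (γ' x) * α (σ x))
    {h h' : ℝ} (hh : 0 < h) (hh' : 0 < h') {f : ℍ → ℂ} (hf : IsDecayHolo h f)
    (hfα : ∀ x, IsDecayHolo h' (f ∣[(n : ℤ) + 2] α x))
    (hinv : ∀ x, f ∣[(n : ℤ) + 2] (mapGL ℝ (γ' x) : GL (Fin 2) ℝ) = f) :
    periodPoly n (∑ x, f ∣[(n : ℤ) + 2] α x) (mapGL ℝ γ) =
      ∑ x, polyAct n (α (σ x)) (periodPoly n f (mapGL ℝ (γ' x))) := by
  have hdetα : ∀ x, 0 < (α x).det.val := fun x =>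
    hr_det_pos_of_upper (α x) (hα x).1 (hα x).2.1 (hα x).2.2
  -- the Eichler polynomial of the sum
  have hE : ∀ τ : ℍ, eichlerPoly n (∑ x, f ∣[(n : ℤ) + 2] α x) τ =
      ∑ x, polyAct n (α x) (eichlerPoly n f (α x • τ)) := by
    intro τ
    rw [eichlerPoly_sum n hh' Finset.univ (fun x _ => hfα x) τ]
    refine Finset.sum_congr rfl fun x _ => ?_
    exact eichlerPoly_slash_upper n hh hf (α x) (hα x).1 (hα x).2.1 (hα x).2.2 τ
  rw [periodPoly, hE, hE, map_sum, ← Finset.sum_sub_distrib]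
  -- rewrite each term
  have hterm : ∀ x, polyAct n (mapGL ℝ γ) (polyAct n (α x) (eichlerPoly n f (α x • (mapGL ℝ γ : GL (Fin 2) ℝ) • I))) =
      polyAct n (α (σ x)) (eichlerPoly n f (α (σ x) • I)) +
        polyAct n (α (σ x)) (periodPoly n f (mapGL ℝ (γ' x))) := by
    intro x
    rw [← polyAct_mul n (hdetα x) (hr_det_mapGL_pos γ) (natDegree_eichlerPoly_le n f _)]
    rw [← mul_smul, hrel x, mul_smul]
    rw [polyAct_mul n (hr_det_mapGL_pos (γ' x)) (hdetα (σ x)) (natDegree_eichlerPoly_le n f _)]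
    rw [← map_add]
    congr 1
    have := polyAct_eichlerPoly_sub n hh hf (mapGL ℝ (γ' x)) (hr_det_mapGL_pos (γ' x)) (hinv x)
      (α (σ x) • I)
    rw [← this]
    ring
  simp_rw [hterm]
  rw [Finset.sum_sub_distrib, Finset.sum_add_distrib]
  rw [Equiv.sum_comp σ (fun x => polyAct n (α x) (eichlerPoly n f (α x • I)))]
  ring

open ModularForm in
lemma hr_heckeMatrix_upper {p : ℕ} (hp : p ≠ 0) (j : ℕ) :
    heckeMatrix p j 1 0 = 0 ∧ 0 < heckeMatrix p j 0 0 ∧ 0 < heckeMatrix p j 1 1 := by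
  simp [val_heckeMatrix hp, Nat.pos_of_ne_zero hp]

open ModularForm in
lemma hr_heckeDiagMatrix_upper {p : ℕ} (hp : p ≠ 0) :
    heckeDiagMatrix p 1 0 = 0 ∧ 0 < heckeDiagMatrix p 0 0 ∧ 0 < heckeDiagMatrix p 1 1 := by
  simp [val_heckeDiagMatrix hp, Nat.pos_of_ne_zero hp]

open ModularForm in
lemma hr_isDecayHolo_slash_heckeMatrix {f : ℍ → ℂ} (hf : IsDecayHolo 1 f) (k : ℤ) {p : ℕ}
    (hp : p ≠ 0) (j : ℕ) : IsDecayHolo p (f ∣[k] heckeMatrix p j) := by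
  have h1 : f ∣[k] heckeMatrix p j = ((p : ℂ)⁻¹) • (fun τ => f (heckeMatrix p j • τ)) := by
    funext τ
    rw [slash_heckeMatrix_apply k hp]
    rfl
  rw [h1]
  obtain ⟨h10, h00, h11⟩ := hr_heckeMatrix_upper hp j
  have h2 := isDecayHolo_comp_upper hf (heckeMatrix p j) h10 h00 h11
  have h3 : (1 : ℝ) * heckeMatrix p j 1 1 / heckeMatrix p j 0 0 = p := by
    simp [val_heckeMatrix hp]
  rw [h3] at h2
  exact h2.smul _

open ModularForm in
lemma hr_isDecayHolo_slash_heckeDiagMatrix {f : ℍ → ℂ} (hf : IsDecayHolo 1 f) (k : ℤ) {p : ℕ}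
    (hp : p ≠ 0) : IsDecayHolo p (f ∣[k] heckeDiagMatrix p) := by
  have h1 : f ∣[k] heckeDiagMatrix p =
      ((p : ℂ) ^ (k - 1)) • (fun τ => f (heckeDiagMatrix p • τ)) := by
    funext τ
    rw [slash_heckeDiagMatrix_apply k hp]
    rfl
  rw [h1]
  obtain ⟨h10, h00, h11⟩ := hr_heckeDiagMatrix_upper hp
  have h2 := (isDecayHolo_comp_upper hf (heckeDiagMatrix p) h10 h00 h11).nat_mul (p * p)
  have hp' : (p : ℝ) ≠ 0 := by exact_mod_cast hp
  have h3 : ((p * p : ℕ) : ℝ) * ((1 : ℝ) * heckeDiagMatrix p 1 1 / heckeDiagMatrix p 0 0) = p := by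
    simp [val_heckeDiagMatrix hp]
  rw [h3] at h2
  exact h2.smul _

open ModularForm in
open P2MW.S_ModularForm_heckeT_slash_eq_self_of_mem_Gamma0.ModularForm.HeckeSlashInvariance in
theorem periodPoly_heckeT (n : ℕ) {N : ℕ} [NeZero N] {p : ℕ} [Fact p.Prime] (hp : p.Prime)
    (hpN : ¬ p ∣ N) (γ : SL(2, ℤ)) (hγ : γ ∈ Gamma0 N) :
    ∃ (γ' : OnePoint (ZMod p) → SL(2, ℤ)) (B : OnePoint (ZMod p) → GL (Fin 2) ℝ),
      (∀ i, γ' i ∈ Gamma0 N) ∧ (∀ i, IsIntegralMat (B i)) ∧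
      ∀ f : CuspForm (Gamma0 N) ((n : ℤ) + 2),
        periodPoly n ⇑(CuspForm.heckeTLin ((n : ℤ) + 2) hp hpN f) (mapGL ℝ γ) =
          ∑ i, polyAct n (B i) (periodPoly n ⇑f (mapGL ℝ (γ' i))) := by
  have hp0 : p ≠ 0 := hp.ne_zero
  have hcN : (N : ℤ) ∣ γ 1 0 :=
    (ZMod.intCast_zmod_eq_zero_iff_dvd _ _).mp (CongruenceSubgroup.Gamma0_mem.mp hγ)
  choose γ' hγ'N hγ'rel using fun x => heckeRep_mul hpN γ hcN x
  have hγ'mem : ∀ x, γ' x ∈ Gamma0 N := fun x =>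
    CongruenceSubgroup.Gamma0_mem.mpr ((ZMod.intCast_zmod_eq_zero_iff_dvd _ _).mpr (hγ'N x))
  let σ : Equiv.Perm (OnePoint (ZMod p)) := MulAction.toPerm (redMatrix p γ)
  have hupper : ∀ x : OnePoint (ZMod p),
      heckeRep p x 1 0 = 0 ∧ 0 < heckeRep p x 0 0 ∧ 0 < heckeRep p x 1 1 := by
    intro x
    induction x using OnePoint.rec with
    | infty => exact hr_heckeDiagMatrix_upper hp0
    | coe j => exact hr_heckeMatrix_upper hp0 j.val
  have hint : ∀ x : OnePoint (ZMod p), IsIntegralMat (heckeRep p x) := by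
    intro x
    induction x using OnePoint.rec with
    | infty => exact isIntegralMat_heckeDiagMatrix p
    | coe j => exact isIntegralMat_heckeMatrix p j.val
  refine ⟨γ', fun x => heckeRep p (σ x), hγ'mem, fun x => hint _, fun f => ?_⟩
  have hf := isDecayHolo_cuspForm f
  have hfα : ∀ x : OnePoint (ZMod p), IsDecayHolo p (⇑f ∣[(n : ℤ) + 2] heckeRep p x) := by
    intro x
    induction x using OnePoint.rec with
    | infty => exact hr_isDecayHolo_slash_heckeDiagMatrix hf _ hp0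
    | coe j => exact hr_isDecayHolo_slash_heckeMatrix hf _ hp0 j.val
  have hsum : ⇑(CuspForm.heckeTLin ((n : ℤ) + 2) hp hpN f) =
      ∑ x : OnePoint (ZMod p), ⇑f ∣[(n : ℤ) + 2] heckeRep p x := by
    rw [CuspForm.coe_heckeTLin_apply, heckeT_eq_sum_onePoint]
  rw [hsum]
  exact periodPoly_sum_slash n (heckeRep p) hupper σ γ γ' hγ'rel one_pos
    (by exact_mod_cast Nat.pos_of_ne_zero hp0) hf hfα
    (fun x => slash_eq_of_mem_Gamma0 f (hγ'mem x))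

open ModularForm in
open P2MW.S_ModularForm_heckeT_slash_eq_self_of_mem_Gamma0.ModularForm.HeckeSlashInvariance in
theorem periodPoly_heckeU (n : ℕ) {N : ℕ} [NeZero N] {q : ℕ} [NeZero q] (hqN : q ∣ N)
    (γ : SL(2, ℤ)) (hγ : γ ∈ Gamma0 N) :
    ∃ (γ' : ZMod q → SL(2, ℤ)) (B : ZMod q → GL (Fin 2) ℝ),
      (∀ i, γ' i ∈ Gamma0 N) ∧ (∀ i, IsIntegralMat (B i)) ∧
      ∀ f : CuspForm (Gamma0 N) ((n : ℤ) + 2),
        periodPoly n ⇑(CuspForm.heckeULin ((n : ℤ) + 2) hqN f) (mapGL ℝ γ) =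
          ∑ i, polyAct n (B i) (periodPoly n ⇑f (mapGL ℝ (γ' i))) := by
  have hq0 : q ≠ 0 := NeZero.ne q
  have hcN : (N : ℤ) ∣ γ 1 0 :=
    (ZMod.intCast_zmod_eq_zero_iff_dvd _ _).mp (CongruenceSubgroup.Gamma0_mem.mp hγ)
  have hc : (q : ℤ) ∣ γ 1 0 := (Int.natCast_dvd_natCast.mpr hqN).trans hcN
  have hc0 : ((γ 1 0 : ℤ) : ZMod q) = 0 := (ZMod.intCast_zmod_eq_zero_iff_dvd _ _).mpr hc
  choose γ' hγ'10 hγ'rel using fun x => heckeMatrix_mul_of_dvd γ hc x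
  have hγ'mem : ∀ x, γ' x ∈ Gamma0 N := by
    intro x
    rw [CongruenceSubgroup.Gamma0_mem, hγ'10 x]
    push_cast
    rw [CongruenceSubgroup.Gamma0_mem.mp hγ, mul_zero]
  let σ : Equiv.Perm (ZMod q) := affinePerm γ hc0
  refine ⟨γ', fun x => heckeMatrix q (σ x).val, hγ'mem,
    fun x => isIntegralMat_heckeMatrix q _, fun f => ?_⟩
  have hf := isDecayHolo_cuspForm f
  have hsum : ⇑(CuspForm.heckeULin ((n : ℤ) + 2) hqN f) =
      ∑ x : ZMod q, ⇑f ∣[(n : ℤ) + 2] heckeMatrix q x.val := by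
    rw [CuspForm.coe_heckeULin_apply, heckeU_eq_sum_zmod]
  rw [hsum]
  exact periodPoly_sum_slash n (fun x : ZMod q => heckeMatrix q x.val)
    (fun x => hr_heckeMatrix_upper hq0 x.val) σ γ γ' hγ'rel one_pos
    (by exact_mod_cast Nat.pos_of_ne_zero hq0) hf
    (fun x => hr_isDecayHolo_slash_heckeMatrix hf _ hq0 x.val)
    (fun x => slash_eq_of_mem_Gamma0 f (hγ'mem x))

/-! ## D. Hecke relation -/

theorem periodPoly_hecke (n : ℕ) {N : ℕ} [NeZero N] (S : Set ℕ)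
    (t : Module.End ℂ (CuspForm (Gamma0 N) ((n : ℤ) + 2)))
    (ht : t ∈ CuspForm.heckeGenerators N ((n : ℤ) + 2) S) (γ : SL(2, ℤ)) (hγ : γ ∈ Gamma0 N) :
    ∃ (ι : Type) (_ : Fintype ι) (γ' : ι → SL(2, ℤ)) (B : ι → GL (Fin 2) ℝ),
      (∀ i, γ' i ∈ Gamma0 N) ∧ (∀ i, IsIntegralMat (B i)) ∧
      ∀ f : CuspForm (Gamma0 N) ((n : ℤ) + 2),
        periodPoly n ⇑(t f) (mapGL ℝ γ) =
          ∑ i, polyAct n (B i) (periodPoly n ⇑f (mapGL ℝ (γ' i))) := by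
  rcases ht with ⟨ℓ, hℓ, hℓN, -, rfl⟩ | ⟨q, hqN, hq, -, rfl⟩
  · have : Fact ℓ.Prime := ⟨hℓ⟩
    obtain ⟨γ', B, h1, h2, h3⟩ := periodPoly_heckeT n hℓ hℓN γ hγ
    exact ⟨OnePoint (ZMod ℓ), inferInstance, γ', B, h1, h2, h3⟩
  · have : NeZero q := ⟨hq.ne_zero⟩
    obtain ⟨γ', B, h1, h2, h3⟩ := periodPoly_heckeU n hqN γ hγ
    exact ⟨ZMod q, inferInstance, γ', B, h1, h2, h3⟩

end

end Fermat.Agent.S22
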