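import Fermat.Agent.S22.EichlerPoly
import Fermat.Agent.S22.CuspFormFacts

set_option autoImplicit false

namespace Fermat.Agent.S22

open UpperHalfPlane Polynomial CongruenceSubgroup Matrix.SpecialLinearGroup
open scoped MatrixGroups ModularForm Manifold

noncomputable section

/-! ## E. injectivity -/

/-- The Eichler integral `E τ = G_f(τ)(τ) = n! f_{n+1}(τ)`. -/
def eichlerInt (n : ℕ) (f : ℍ → ℂ) (τ : ℍ) : ℂ := (eichlerPoly n f τ).eval (τ : ℂ)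

theorem eichlerInt_eq (n : ℕ) (f : ℍ → ℂ) (τ : ℍ) :
    eichlerInt n f τ = (n.factorial : ℂ) * (dprim^[n + 1] f) τ :=
  eval_self_eichlerPoly n f τ

theorem det_mapGL_pos (δ : SL(2, ℤ)) : 0 < (mapGL ℝ δ).det.val := by simp

theorem slash_eichlerInt_apply (n : ℕ) (f : ℍ → ℂ) (δ : SL(2, ℤ)) (τ : ℍ) :
    (eichlerInt n f ∣[-(n : ℤ)] (mapGL ℝ δ)) τ =
      (polyAct n (mapGL ℝ δ) (eichlerPoly n f ((mapGL ℝ δ) • τ))).eval (τ : ℂ) := by
  rw [eval_polyAct n (det_mapGL_pos δ) (natDegree_eichlerPoly_le n f _) τ]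
  rw [ModularForm.slash_apply]
  have hσ : σ (mapGL ℝ δ) = ContinuousAlgEquiv.refl ℝ ℂ := by
    simp [σ]
  rw [hσ]
  simp only [eichlerInt, neg_neg, zpow_natCast]
  have hdet : |(mapGL ℝ δ).det.val| = 1 := by simp
  rw [hdet]
  simp
  ring


theorem slash_eichlerInt_of_mem_Gamma0 (n : ℕ) {N : ℕ} [NeZero N]
    (f : CuspForm (Gamma0 N) ((n : ℤ) + 2))
    (h : ∀ γ ∈ Gamma0 N, periodPoly n ⇑f (mapGL ℝ γ) = 0) {γ : SL(2, ℤ)} (hγ : γ ∈ Gamma0 N) :
    eichlerInt n ⇑f ∣[-(n : ℤ)] (mapGL ℝ γ) = eichlerInt n ⇑f := by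
  funext τ
  rw [slash_eichlerInt_apply]
  have h1 := polyAct_eichlerPoly_sub n one_pos (isDecayHolo_cuspForm f) (mapGL ℝ γ)
    (det_mapGL_pos γ) (slash_eq_of_mem_Gamma0 f hγ) τ
  rw [h γ hγ, sub_eq_zero] at h1
  rw [h1]
  rfl


/-- A polynomial invariant under translation by a nonzero real number on `ℍ` is constant. -/
theorem eq_C_of_eval_vadd_eq {Q : ℂ[X]} {r : ℝ} (hr : r ≠ 0)
    (hQ : ∀ τ : ℍ, Q.eval (((r +ᵥ τ : ℍ) : ℂ)) = Q.eval (τ : ℂ)) : Q = C (Q.eval (I : ℂ)) := by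
  have hroot : ∀ m : ℕ, Q.eval (((I : ℍ) : ℂ) + (m : ℂ) * (r : ℂ)) = Q.eval ((I : ℍ) : ℂ) := by
    intro m
    induction m with
    | zero => simp
    | succ m ih =>
      have him : 0 < (((I : ℍ) : ℂ) + (m : ℂ) * (r : ℂ)).im := by
        simp
      have := hQ ⟨_, him⟩
      rw [← ih, ← this]
      congr 1
      simp only [coe_vadd]
      push_cast
      ring
  rw [← sub_eq_zero]
  apply Polynomial.eq_zero_of_infinite_isRoot
  have hinj : Function.Injective (fun m : ℕ => ((I : ℍ) : ℂ) + (m : ℂ) * (r : ℂ)) := by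
    intro a b hab
    simp only [add_right_inj] at hab
    have hrc : (r : ℂ) ≠ 0 := by exact_mod_cast hr
    exact_mod_cast mul_right_cancel₀ hrc hab
  refine Set.infinite_of_injective_forall_mem hinj (fun m => ?_)
  simp only [Set.mem_ofPred_eq, IsRoot.def, eval_sub, eval_C]
  rw [hroot m]
  simp


theorem conj_T_pow_mem_Gamma0 (N : ℕ) (δ : SL(2, ℤ)) :
    δ * ModularGroup.T ^ (N : ℤ) * δ⁻¹ ∈ Gamma0 N := by
  have h1 : ModularGroup.T ^ (N : ℤ) ∈ Gamma N := by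
    simpa using ModularGroup_T_pow_mem_Gamma (N : ℤ) (N : ℤ) dvd_rfl
  have h2 : δ * ModularGroup.T ^ (N : ℤ) * δ⁻¹ ∈ Gamma N :=
    (Gamma_normal N).conj_mem _ h1 δ
  rw [Gamma_mem] at h2
  rw [Gamma0_mem]
  exact h2.2.2.1

/-- `E∣δ` is `N`-periodic. -/
theorem slash_eichlerInt_periodic (n : ℕ) {N : ℕ} [NeZero N]
    (f : CuspForm (Gamma0 N) ((n : ℤ) + 2))
    (h : ∀ γ ∈ Gamma0 N, periodPoly n ⇑f (mapGL ℝ γ) = 0) (δ : SL(2, ℤ)) (τ : ℍ) :
    (eichlerInt n ⇑f ∣[-(n : ℤ)] (mapGL ℝ δ)) ((N : ℝ) +ᵥ τ) =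
      (eichlerInt n ⇑f ∣[-(n : ℤ)] (mapGL ℝ δ)) τ := by
  set E := eichlerInt n ⇑f with hE
  set T' : SL(2, ℤ) := ModularGroup.T ^ (N : ℤ) with hT'
  have hγ' := conj_T_pow_mem_Gamma0 N δ
  have hmul : δ * T' = (δ * T' * δ⁻¹) * δ := by group
  have key : (E ∣[-(n : ℤ)] (mapGL ℝ δ)) ∣[-(n : ℤ)] (mapGL ℝ T') = E ∣[-(n : ℤ)] (mapGL ℝ δ) := by
    rw [← SlashAction.slash_mul, ← map_mul, hmul, map_mul, SlashAction.slash_mul,
      slash_eichlerInt_of_mem_Gamma0 n f h hγ']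
  have key2 := congrFun key τ
  rw [ModularForm.slash_apply] at key2
  have hσ : σ (mapGL ℝ T') = ContinuousAlgEquiv.refl ℝ ℂ := by simp [σ]
  have hdet : |(mapGL ℝ T').det.val| = 1 := by simp
  have hsm : (mapGL ℝ T') • τ = (N : ℝ) +ᵥ τ := by
    have := modular_T_zpow_smul τ (N : ℤ)
    rw [Int.cast_natCast] at this
    exact this
  have hden : denom (mapGL ℝ T') τ = 1 := by
    have h10 : (T' : Matrix (Fin 2) (Fin 2) ℤ) 1 0 = 0 := by
      rw [hT', ModularGroup.coe_T_zpow]; simp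
    have h11 : (T' : Matrix (Fin 2) (Fin 2) ℤ) 1 1 = 1 := by
      rw [hT', ModularGroup.coe_T_zpow]; simp
    change (((mapGL ℝ T' : GL (Fin 2) ℝ) : Matrix (Fin 2) (Fin 2) ℝ) 1 0 : ℂ) * (τ : ℂ) +
      (((mapGL ℝ T' : GL (Fin 2) ℝ) : Matrix (Fin 2) (Fin 2) ℝ) 1 1 : ℂ) = 1
    rw [mapGL_coe_matrix]
    simp [h10, h11]
  rw [hσ, hdet, hsm, hden] at key2
  simpa using key2


/-- `E∣δ` is bounded at `i∞` for every `δ ∈ SL(2, ℤ)`. -/
theorem isBoundedAtImInfty_slash_eichlerInt (n : ℕ) {N : ℕ} [NeZero N]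
    (f : CuspForm (Gamma0 N) ((n : ℤ) + 2))
    (h : ∀ γ ∈ Gamma0 N, periodPoly n ⇑f (mapGL ℝ γ) = 0) (δ : SL(2, ℤ)) :
    IsBoundedAtImInfty (eichlerInt n ⇑f ∣[-(n : ℤ)] (mapGL ℝ δ)) := by
  have hN : (0 : ℝ) < N := Nat.cast_pos.mpr (NeZero.pos N)
  have hfδ := isDecayHolo_cuspForm_slash f δ
  obtain ⟨Q, -, hQ⟩ := exists_const_polyAct_eichlerPoly n one_pos hN (isDecayHolo_cuspForm f)
    (mapGL ℝ δ) (det_mapGL_pos δ) hfδ
  set F := dprim^[n + 1] (⇑f ∣[(n : ℤ) + 2] (mapGL ℝ δ)) with hF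
  have hFdecay : IsDecayHolo N F := isDecayHolo_dprim_iterate hN hfδ (n + 1)
  have hform : ∀ τ : ℍ, (eichlerInt n ⇑f ∣[-(n : ℤ)] (mapGL ℝ δ)) τ =
      (n.factorial : ℂ) * F τ + Q.eval (τ : ℂ) := by
    intro τ
    rw [slash_eichlerInt_apply, hQ τ, eval_add, eval_self_eichlerPoly]
  -- Q is constant
  have hQper : ∀ τ : ℍ, Q.eval ((((N : ℝ) +ᵥ τ : ℍ) : ℂ)) = Q.eval (τ : ℂ) := by
    intro τ
    have h1 := hform ((N : ℝ) +ᵥ τ)
    rw [slash_eichlerInt_periodic n f h δ τ, hform τ, hFdecay.2.1 τ] at h1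
    exact (add_left_cancel h1).symm
  have hQC := eq_C_of_eval_vadd_eq hN.ne' hQper
  have hfun : (eichlerInt n ⇑f ∣[-(n : ℤ)] (mapGL ℝ δ)) =
      (fun τ => (n.factorial : ℂ) * F τ) + fun _ => Q.eval ((I : ℍ) : ℂ) := by
    funext τ
    rw [hform τ, hQC]
    simp
  rw [hfun]
  have hFb : IsBoundedAtImInfty F := hFdecay.2.2.isBoundedAtImInfty
  exact (hFb.const_mul_left _).add (Filter.const_boundedAtFilter _ _)


theorem mdiff_eichlerInt (n : ℕ) {N : ℕ} [NeZero N] (f : CuspForm (Gamma0 N) ((n : ℤ) + 2)) :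
    MDiff (eichlerInt n ⇑f) := by
  have hF : MDiff (dprim^[n + 1] ⇑f) :=
    (isDecayHolo_dprim_iterate one_pos (isDecayHolo_cuspForm f) (n + 1)).1
  have : eichlerInt n ⇑f = (n.factorial : ℂ) • (dprim^[n + 1] ⇑f) := by
    funext τ
    rw [eichlerInt_eq]
    rfl
  rw [this]
  exact hF.const_smul _

/-- The Eichler integral of a cusp form with vanishing period polynomials is a modular form of
weight `-n`. -/
def eichlerIntForm (n : ℕ) {N : ℕ} [NeZero N] (f : CuspForm (Gamma0 N) ((n : ℤ) + 2))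
    (h : ∀ γ ∈ Gamma0 N, periodPoly n ⇑f (mapGL ℝ γ) = 0) (k : ℤ) (hk : k = -(n : ℤ)) :
    ModularForm (Gamma0 N) k where
  toFun := eichlerInt n ⇑f
  slash_action_eq' γ hγ := by
    subst hk
    obtain ⟨γ', hγ', rfl⟩ := Subgroup.mem_map.mp hγ
    exact slash_eichlerInt_of_mem_Gamma0 n f h hγ'
  holo' := mdiff_eichlerInt n f
  bdd_at_cusps' {c} hc := by
    subst hk
    rw [Subgroup.IsArithmetic.isCusp_iff_isCusp_SL2Z] at hc
    rw [OnePoint.isBoundedAt_iff_forall_SL2Z hc]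
    intro δ _
    exact isBoundedAtImInfty_slash_eichlerInt n f h δ


theorem eichlerInt_const (n : ℕ) {N : ℕ} [NeZero N] (f : CuspForm (Gamma0 N) ((n : ℤ) + 2))
    (h : ∀ γ ∈ Gamma0 N, periodPoly n ⇑f (mapGL ℝ γ) = 0) :
    ∃ c : ℂ, eichlerInt n ⇑f = Function.const ℍ c := by
  rcases Nat.eq_zero_or_pos n with rfl | hn
  · exact ModularForm.eq_const_of_weight_zero (eichlerIntForm 0 f h 0 (by simp))
  · have h0 := ModularForm.isZero_of_neg_weight (k := -(n : ℤ)) (by simpa using hn)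
      (eichlerIntForm n f h _ rfl)
    refine ⟨0, ?_⟩
    funext τ
    have := congrArg (fun g : ModularForm (Gamma0 N) (-(n : ℤ)) => g τ) h0
    exact this

theorem dprim_iterate_eq_zero_of_succ_const {h : ℝ} (hh : 0 < h) {g : ℍ → ℂ}
    (hg : IsDecayHolo h g) (m : ℕ) (hc : ∃ c : ℂ, dprim^[m + 1] g = Function.const ℍ c) :
    dprim^[m] g = 0 := by
  obtain ⟨c, hc⟩ := hc
  have hprim := isDecayPrim_dprim hh (isDecayHolo_dprim_iterate hh hg m)
  rw [← Function.iterate_succ_apply' dprim m g, hc] at hprim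
  funext τ
  have h1 := hprim.1 τ
  have h2 : HasDerivAt (Function.const ℍ c ∘ ofComplex) 0 (τ : ℂ) := by
    have : (Function.const ℍ c ∘ ofComplex) = fun _ : ℂ => c := by
      funext z; rfl
    rw [this]
    exact hasDerivAt_const _ _
  exact h1.unique h2

theorem eq_zero_of_dprim_iterate_const {h : ℝ} (hh : 0 < h) {g : ℍ → ℂ}
    (hg : IsDecayHolo h g) : ∀ m : ℕ, (∃ c : ℂ, dprim^[m + 1] g = Function.const ℍ c) → g = 0 := by
  intro m
  induction m with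
  | zero =>
    intro hc
    simpa using dprim_iterate_eq_zero_of_succ_const hh hg 0 hc
  | succ m ih =>
    intro hc
    have h0 := dprim_iterate_eq_zero_of_succ_const hh hg (m + 1) hc
    exact ih ⟨0, by rw [h0]; rfl⟩

theorem eq_zero_of_periodPoly_eq_zero (n : ℕ) {N : ℕ} [NeZero N]
    (f : CuspForm (Gamma0 N) ((n : ℤ) + 2))
    (h : ∀ γ ∈ Gamma0 N, periodPoly n ⇑f (mapGL ℝ γ) = 0) : f = 0 := by
  obtain ⟨c, hc⟩ := eichlerInt_const n f h
  have hfac : (n.factorial : ℂ) ≠ 0 := Nat.cast_ne_zero.mpr n.factorial_ne_zero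
  have hF : ∃ c' : ℂ, dprim^[n + 1] ⇑f = Function.const ℍ c' := by
    refine ⟨c / n.factorial, ?_⟩
    funext τ
    have := congrFun hc τ
    rw [eichlerInt_eq] at this
    simp only [Function.const_apply] at this ⊢
    field_simp
    rw [← this]
    ring
  have hf0 := eq_zero_of_dprim_iterate_const one_pos (isDecayHolo_cuspForm f) n hF
  ext τ
  exact congrFun hf0 τ

end

end Fermat.Agent.S22
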