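import Mathlib

set_option autoImplicit false

namespace Fermat.Agent.S22

section

variable {V : Type*} [AddCommGroup V] [Module ℂ V]

/-- Stability of a lattice of functionals under a set of operators passes to the generated
`ℤ`-algebra. -/
theorem comp_mem_of_mem_adjoin (gens : Set (Module.End ℂ V))
    (Lam : Submodule ℤ (V →ₗ[ℂ] ℂ))
    (hstab : ∀ t ∈ gens, ∀ ξ ∈ Lam, ξ.comp t ∈ Lam)
    {t : Module.End ℂ V} (ht : t ∈ Algebra.adjoin ℤ gens) :
    ∀ ξ ∈ Lam, ξ.comp t ∈ Lam := by
  induction ht using Algebra.adjoin_induction with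
  | mem x hx => exact hstab x hx
  | algebraMap r =>
    intro ξ hξ
    have : ξ.comp (algebraMap ℤ (Module.End ℂ V) r) = r • ξ := by
      ext v
      simp
    rw [this]
    exact Lam.smul_mem r hξ
  | add x y _ _ hx hy =>
    intro ξ hξ
    have : ξ.comp (x + y) = ξ.comp x + ξ.comp y := by
      ext v; simp
    rw [this]
    exact Lam.add_mem (hx ξ hξ) (hy ξ hξ)
  | mul x y _ _ hx hy =>
    intro ξ hξ
    have : ξ.comp (x * y) = (ξ.comp x).comp y := by
      ext v; simp [Module.End.mul_apply]
    rw [this]
    exact hy _ (hx ξ hξ)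

/-- Key algebraic end-game: a `ℤ`-algebra of operators on a complex vector space which
preserves (by precomposition) a finitely generated, separating lattice of functionals is a
finitely generated `ℤ`-module. -/
theorem finite_of_stable_lattice (gens : Set (Module.End ℂ V))
    (Lam : Submodule ℤ (V →ₗ[ℂ] ℂ)) (hfg : Lam.FG)
    (hsep : ∀ v : V, (∀ ξ ∈ Lam, ξ v = 0) → v = 0)
    (hstab : ∀ t ∈ gens, ∀ ξ ∈ Lam, ξ.comp t ∈ Lam) :
    Module.Finite ℤ (Algebra.adjoin ℤ gens) := by
  classical
  have hfin : Module.Finite ℤ Lam := Module.Finite.iff_fg.mpr hfg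
  obtain ⟨s, hs⟩ := hfg
  -- the evaluation-at-generators map
  let Φ : (Algebra.adjoin ℤ gens) →ₗ[ℤ] (s → Lam) :=
    { toFun := fun t i =>
        ⟨(i : V →ₗ[ℂ] ℂ).comp (t : Module.End ℂ V),
          comp_mem_of_mem_adjoin gens Lam hstab t.2 _ (hs ▸ Submodule.subset_span i.2)⟩
      map_add' := by
        intro t t'
        funext i
        apply Subtype.ext
        ext v
        simp
      map_smul' := by
        intro n t
        funext i
        apply Subtype.ext
        ext v
        simp }
  have hΦ : Function.Injective Φ := by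
    rw [← LinearMap.ker_eq_bot, LinearMap.ker_eq_bot']
    intro t ht
    apply Subtype.ext
    have h0 : ∀ i : s, (i : V →ₗ[ℂ] ℂ).comp (t : Module.End ℂ V) = 0 := by
      intro i
      have := congrArg (fun f => ((f i : Lam) : V →ₗ[ℂ] ℂ)) ht
      simpa [Φ] using this
    -- every ξ ∈ Lam kills the image of t
    have h1 : ∀ ξ ∈ Lam, ξ.comp (t : Module.End ℂ V) = 0 := by
      intro ξ hξ
      rw [← hs] at hξ
      induction hξ using Submodule.span_induction with
      | mem x hx => exact h0 ⟨x, hx⟩
      | zero => ext v; simp
      | add x y _ _ hx hy =>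
        ext v
        have hx' := congrArg (fun f => f v) hx
        have hy' := congrArg (fun f => f v) hy
        simp only [LinearMap.comp_apply, LinearMap.zero_apply] at hx' hy'
        simp [hx', hy']
      | smul a x _ hx =>
        ext v
        have hx' := congrArg (fun f => f v) hx
        simp only [LinearMap.comp_apply, LinearMap.zero_apply] at hx'
        simp [hx']
    ext v
    have : (t : Module.End ℂ V) v = 0 := by
      apply hsep
      intro ξ hξ
      have := congrArg (fun f => f v) (h1 ξ hξ)
      simpa using this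
    simpa using this
  exact Module.Finite.of_injective Φ hΦ

end

end Fermat.Agent.S22
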