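import Mathlib
import Fermat.Prelude.Def_CuspForm_HeckeAlgebra
import Fermat.Prelude.Thm_CongruenceSubgroup_one_mem_strictPeriods_Gamma0

set_option autoImplicit false

namespace Fermat.Agent.S22

open UpperHalfPlane CongruenceSubgroup Matrix.SpecialLinearGroup
open scoped MatrixGroups ModularForm Manifold

/-! ## G. low weight -/

theorem cuspForm_eq_zero_of_weight_le_one {N : ℕ} [NeZero N] {k : ℤ} (hk : k ≤ 1)
    (f : CuspForm (Gamma0 N) k) : f = 0 := by
  have hmf : ModularFormClass.modularForm f = 0 → f = 0 := by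
    intro h
    apply DFunLike.coe_injective
    have := congrArg (fun g : ModularForm (Gamma0 N : Subgroup (GL (Fin 2) ℝ)) k => (⇑g : ℍ → ℂ)) h
    simpa using this
  rcases lt_trichotomy k 0 with hk0 | hk0 | hk0
  · exact hmf (ModularForm.isZero_of_neg_weight hk0 _)
  · subst hk0
    obtain ⟨c, hc⟩ := ModularForm.eq_const_of_weight_zero (ModularFormClass.modularForm f)
    have hfc : (⇑f : ℍ → ℂ) = Function.const ℍ c := by
      rw [← hc]; rfl
    have h1 := CongruenceSubgroup.one_mem_strictPeriods_Gamma0 N
    have hcusp : IsCusp OnePoint.infty (Gamma0 N : Subgroup (GL (Fin 2) ℝ)) :=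
      Subgroup.isCusp_of_mem_strictPeriods one_pos h1
    have hz : IsZeroAtImInfty (⇑f : ℍ → ℂ) := by
      have := CuspFormClass.zero_at_cusps f hcusp
      exact OnePoint.isZeroAt_infty_iff.mp this
    have hc0 : c = 0 := by
      rw [hfc] at hz
      have h2 : Filter.Tendsto (Function.const ℍ c) atImInfty (nhds 0) := hz
      have h3 : Filter.Tendsto (Function.const ℍ c) atImInfty (nhds c) := tendsto_const_nhds
      exact tendsto_nhds_unique h3 h2
    apply DFunLike.coe_injective
    rw [hfc, hc0]
    rfl
  · have hk1 : k = 1 := by omega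
    subst hk1
    apply hmf
    refine ModularForm.eq_zero_of_neg_one_mem ?_ odd_one _
    refine ⟨-1, ?_, ?_⟩
    · change (-1 : SL(2, ℤ)) ∈ Gamma0 N
      rw [Gamma0_mem]
      simp
    · ext i j
      simp
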