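import Fermat.Agent.S22.Defs
import Fermat.Agent.S22.DecayPrimExists

set_option autoImplicit false

namespace Fermat.Agent.S22

open UpperHalfPlane Polynomial CongruenceSubgroup Matrix.SpecialLinearGroup
open scoped MatrixGroups ModularForm Manifold

noncomputable section

theorem dprim_eq {g F : ℍ → ℂ} (hF : IsDecayPrim g F) : dprim g = F := by
  have h : ∃ F, IsDecayPrim g F := ⟨F, hF⟩
  unfold dprim
  rw [dif_pos h]
  exact IsDecayPrim.unique h.choose_spec hF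

theorem isDecayPrim_dprim {h : ℝ} (hh : 0 < h) {g : ℍ → ℂ} (hg : IsDecayHolo h g) :
    IsDecayPrim g (dprim g) := by
  obtain ⟨F, hF, -⟩ := exists_isDecayPrim hh hg
  rwa [dprim_eq hF]

theorem isDecayHolo_dprim {h : ℝ} (hh : 0 < h) {g : ℍ → ℂ} (hg : IsDecayHolo h g) :
    IsDecayHolo h (dprim g) := by
  obtain ⟨F, hF, hF'⟩ := exists_isDecayPrim hh hg
  rwa [dprim_eq hF]

theorem isDecayHolo_dprim_iterate {h : ℝ} (hh : 0 < h) {g : ℍ → ℂ} (hg : IsDecayHolo h g) (m : ℕ) :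
    IsDecayHolo h (dprim^[m] g) := by
  induction m with
  | zero => simpa using hg
  | succ m ih =>
    rw [Function.iterate_succ_apply']
    exact isDecayHolo_dprim hh ih

theorem IsDecayHolo.add {h : ℝ} {g₁ g₂ : ℍ → ℂ} (h₁ : IsDecayHolo h g₁) (h₂ : IsDecayHolo h g₂) :
    IsDecayHolo h (g₁ + g₂) := by
  refine ⟨h₁.1.add h₂.1, fun τ => ?_, ?_⟩
  · simp only [Pi.add_apply, h₁.2.1 τ, h₂.2.1 τ]
  · exact Filter.ZeroAtFilter.add h₁.2.2 h₂.2.2

theorem IsDecayHolo.smul {h : ℝ} {g : ℍ → ℂ} (hg : IsDecayHolo h g) (c : ℂ) :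
    IsDecayHolo h (c • g) := by
  refine ⟨hg.1.const_smul c, fun τ => ?_, ?_⟩
  · simp only [Pi.smul_apply, hg.2.1 τ]
  · exact Filter.ZeroAtFilter.smul c hg.2.2

theorem isDecayHolo_zero (h : ℝ) : IsDecayHolo h (0 : ℍ → ℂ) := by
  refine ⟨?_, fun τ => rfl, Filter.zero_zeroAtFilter _⟩
  exact mdifferentiable_const (c := (0 : ℂ))

theorem IsDecayHolo.sum {h : ℝ} {ι : Type*} (s : Finset ι) {g : ι → ℍ → ℂ}
    (hg : ∀ i ∈ s, IsDecayHolo h (g i)) : IsDecayHolo h (∑ i ∈ s, g i) := by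
  classical
  induction s using Finset.induction_on with
  | empty => simpa using isDecayHolo_zero h
  | insert a s ha ih =>
    rw [Finset.sum_insert ha]
    exact (hg a (Finset.mem_insert_self a s)).add
      (ih fun i hi => hg i (Finset.mem_insert_of_mem hi))

theorem IsDecayHolo.nat_mul {h : ℝ} {g : ℍ → ℂ} (hg : IsDecayHolo h g) (m : ℕ) :
    IsDecayHolo (m * h) g := by
  refine ⟨hg.1, fun τ => ?_, hg.2.2⟩
  induction m with
  | zero => simp
  | succ m ih =>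
    have : ((m + 1 : ℕ) : ℝ) * h = h + m * h := by push_cast; ring
    rw [this, add_vadd, hg.2.1, ih]

theorem IsDecayPrim.add {g₁ g₂ F₁ F₂ : ℍ → ℂ} (h₁ : IsDecayPrim g₁ F₁) (h₂ : IsDecayPrim g₂ F₂) :
    IsDecayPrim (g₁ + g₂) (F₁ + F₂) :=
  ⟨fun τ => (h₁.1 τ).add (h₂.1 τ), Filter.ZeroAtFilter.add h₁.2 h₂.2⟩

theorem IsDecayPrim.smul {g F : ℍ → ℂ} (hF : IsDecayPrim g F) (c : ℂ) :
    IsDecayPrim (c • g) (c • F) :=
  ⟨fun τ => (hF.1 τ).const_smul c, Filter.ZeroAtFilter.smul c hF.2⟩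

theorem isDecayPrim_zero : IsDecayPrim (0 : ℍ → ℂ) 0 :=
  ⟨fun _ => hasDerivAt_const _ _, Filter.zero_zeroAtFilter _⟩

theorem dprim_zero : dprim (0 : ℍ → ℂ) = 0 := dprim_eq isDecayPrim_zero

theorem dprim_add {h : ℝ} (hh : 0 < h) {g₁ g₂ : ℍ → ℂ} (h₁ : IsDecayHolo h g₁)
    (h₂ : IsDecayHolo h g₂) : dprim (g₁ + g₂) = dprim g₁ + dprim g₂ :=
  dprim_eq ((isDecayPrim_dprim hh h₁).add (isDecayPrim_dprim hh h₂))

theorem dprim_smul {h : ℝ} (hh : 0 < h) {g : ℍ → ℂ} (hg : IsDecayHolo h g) (c : ℂ) :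
    dprim (c • g) = c • dprim g :=
  dprim_eq ((isDecayPrim_dprim hh hg).smul c)

theorem dprim_iterate_zero (m : ℕ) : dprim^[m] (0 : ℍ → ℂ) = 0 := by
  induction m with
  | zero => rfl
  | succ m ih => rw [Function.iterate_succ_apply', ih, dprim_zero]

theorem dprim_iterate_add {h : ℝ} (hh : 0 < h) {g₁ g₂ : ℍ → ℂ} (h₁ : IsDecayHolo h g₁)
    (h₂ : IsDecayHolo h g₂) (m : ℕ) :
    dprim^[m] (g₁ + g₂) = dprim^[m] g₁ + dprim^[m] g₂ := by
  induction m with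
  | zero => rfl
  | succ m ih =>
    rw [Function.iterate_succ_apply', Function.iterate_succ_apply', Function.iterate_succ_apply',
      ih, dprim_add hh (isDecayHolo_dprim_iterate hh h₁ m) (isDecayHolo_dprim_iterate hh h₂ m)]

theorem dprim_iterate_smul {h : ℝ} (hh : 0 < h) {g : ℍ → ℂ} (hg : IsDecayHolo h g) (c : ℂ) (m : ℕ) :
    dprim^[m] (c • g) = c • dprim^[m] g := by
  induction m with
  | zero => rfl
  | succ m ih =>
    rw [Function.iterate_succ_apply', Function.iterate_succ_apply', ih,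
      dprim_smul hh (isDecayHolo_dprim_iterate hh hg m)]

theorem dprim_iterate_sum {h : ℝ} (hh : 0 < h) {ι : Type*} (s : Finset ι) {g : ι → ℍ → ℂ}
    (hg : ∀ i ∈ s, IsDecayHolo h (g i)) (m : ℕ) :
    dprim^[m] (∑ i ∈ s, g i) = ∑ i ∈ s, dprim^[m] (g i) := by
  classical
  induction s using Finset.induction_on with
  | empty => simpa using dprim_iterate_zero m
  | insert a s ha ih =>
    rw [Finset.sum_insert ha, Finset.sum_insert ha,
      dprim_iterate_add hh (hg a (Finset.mem_insert_self a s))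
        (IsDecayHolo.sum s fun i hi => hg i (Finset.mem_insert_of_mem hi)),
      ih fun i hi => hg i (Finset.mem_insert_of_mem hi)]


theorem det_pos_of_upper (α : GL (Fin 2) ℝ) (hα : α 1 0 = 0) (ha : 0 < α 0 0) (hd : 0 < α 1 1) :
    0 < α.det.val := by
  rw [Matrix.GeneralLinearGroup.val_det_apply, Matrix.det_fin_two, hα, mul_zero, sub_zero]
  exact mul_pos ha hd

theorem coe_upper_smul (α : GL (Fin 2) ℝ) (hα : α 1 0 = 0) (ha : 0 < α 0 0) (hd : 0 < α 1 1)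
    (τ : ℍ) : ((α • τ : ℍ) : ℂ) = ((α 0 0 : ℝ) * (τ : ℂ) + (α 0 1 : ℝ)) / (α 1 1 : ℝ) := by
  rw [UpperHalfPlane.coe_smul_of_det_pos (det_pos_of_upper α hα ha hd)]
  simp [UpperHalfPlane.num, UpperHalfPlane.denom, hα]

theorem upper_smul_vadd (α : GL (Fin 2) ℝ) (hα : α 1 0 = 0) (ha : 0 < α 0 0) (hd : 0 < α 1 1)
    (c : ℝ) (τ : ℍ) : α • ((c * α 1 1 / α 0 0) +ᵥ τ) = c +ᵥ (α • τ) := by
  apply UpperHalfPlane.ext
  rw [coe_upper_smul α hα ha hd, UpperHalfPlane.coe_vadd, UpperHalfPlane.coe_vadd,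
    coe_upper_smul α hα ha hd]
  have ha' : ((α 0 0 : ℝ) : ℂ) ≠ 0 := by exact_mod_cast ha.ne'
  have hd' : ((α 1 1 : ℝ) : ℂ) ≠ 0 := by exact_mod_cast hd.ne'
  push_cast
  field_simp
  ring

/-- composition with an upper triangular matrix with positive diagonal -/
theorem isDecayHolo_comp_upper {h : ℝ} {g : ℍ → ℂ} (hg : IsDecayHolo h g)
    (α : GL (Fin 2) ℝ) (hα : α 1 0 = 0) (ha : 0 < α 0 0) (hd : 0 < α 1 1) :
    IsDecayHolo (h * α 1 1 / α 0 0) (fun τ => g (α • τ)) := by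
  refine ⟨?_, fun τ => ?_, ?_⟩
  · exact hg.1.comp (mdifferentiable_smul (det_pos_of_upper α hα ha hd))
  · show g (α • ((h * α 1 1 / α 0 0) +ᵥ τ)) = g (α • τ)
    rw [upper_smul_vadd α hα ha hd, hg.2.1]
  · exact hg.2.2.comp (tendsto_smul_atImInfty hα)


theorem isDecayPrim_comp_upper {G F : ℍ → ℂ} (hF : IsDecayPrim G F)
    (α : GL (Fin 2) ℝ) (hα : α 1 0 = 0) (ha : 0 < α 0 0) (hd : 0 < α 1 1) :
    IsDecayPrim (fun τ => G (α • τ)) (fun τ => ((α 1 1 / α 0 0 : ℝ) : ℂ) * F (α • τ)) := by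
  have hdet := det_pos_of_upper α hα ha hd
  refine ⟨fun τ => ?_, ?_⟩
  · have hφ : HasDerivAt (fun z : ℂ => ((α • ofComplex z : ℍ) : ℂ))
        ((α.val.det : ℂ) / denom α τ ^ 2) (τ : ℂ) := (hasStrictDerivAt_smul hdet τ).hasDerivAt
    have hF' : HasDerivAt (F ∘ ofComplex) (G (α • τ))
        ((fun z : ℂ => ((α • ofComplex z : ℍ) : ℂ)) (τ : ℂ)) := by
      simpa [ofComplex_apply] using hF.1 (α • τ)
    have hcomp := (hF'.comp (τ : ℂ) hφ).const_mul (((α 1 1 / α 0 0 : ℝ) : ℂ))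
    have hfun : ((fun τ => ((α 1 1 / α 0 0 : ℝ) : ℂ) * F (α • τ)) ∘ ofComplex) =
        fun y => ((α 1 1 / α 0 0 : ℝ) : ℂ) *
          ((F ∘ ofComplex) ∘ fun z : ℂ => ((α • ofComplex z : ℍ) : ℂ)) y := by
      funext z
      simp [Function.comp, ofComplex_apply]
    rw [hfun]
    refine hcomp.congr_deriv ?_
    have key : ((α 1 1 / α 0 0 : ℝ) : ℂ) * ((α.val.det : ℂ) / denom α τ ^ 2) = 1 := by
      have hden : denom α τ = ((α 1 1 : ℝ) : ℂ) := by
        simp [UpperHalfPlane.denom, hα]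
      rw [hden, Matrix.det_fin_two, hα, mul_zero, sub_zero]
      have ha' : (α 0 0 : ℝ) ≠ 0 := ha.ne'
      have hd' : (α 1 1 : ℝ) ≠ 0 := hd.ne'
      rw [← Complex.ofReal_pow, ← Complex.ofReal_div, ← Complex.ofReal_mul]
      rw [show (α 1 1 / α 0 0 * ((α : Matrix (Fin 2) (Fin 2) ℝ) 0 0 *
        (α : Matrix (Fin 2) (Fin 2) ℝ) 1 1 / (α : Matrix (Fin 2) (Fin 2) ℝ) 1 1 ^ 2) : ℝ) = 1 by
          field_simp]
      simp
    rw [mul_left_comm, key, mul_one]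
  · exact Filter.ZeroAtFilter.smul (((α 1 1 / α 0 0 : ℝ) : ℂ))
      (hF.2.comp (tendsto_smul_atImInfty hα))

theorem dprim_iterate_comp_upper {h : ℝ} (hh : 0 < h) {g : ℍ → ℂ} (hg : IsDecayHolo h g)
    (α : GL (Fin 2) ℝ) (hα : α 1 0 = 0) (ha : 0 < α 0 0) (hd : 0 < α 1 1) (m : ℕ) :
    dprim^[m] (fun τ => g (α • τ)) =
      fun τ => (((α 1 1 / α 0 0 : ℝ) : ℂ)) ^ m * (dprim^[m] g) (α • τ) := by
  induction m with
  | zero => funext τ; simp
  | succ m ih =>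
    rw [Function.iterate_succ_apply', ih]
    have hGm := isDecayHolo_dprim_iterate hh hg m
    have hP := isDecayPrim_comp_upper (isDecayPrim_dprim hh hGm) α hα ha hd
    have hP' := hP.smul ((((α 1 1 / α 0 0 : ℝ) : ℂ)) ^ m)
    have h1 : ((((α 1 1 / α 0 0 : ℝ) : ℂ)) ^ m • fun τ => (dprim^[m] g) (α • τ)) =
        fun τ => (((α 1 1 / α 0 0 : ℝ) : ℂ)) ^ m * (dprim^[m] g) (α • τ) := by
      funext τ; simp
    rw [h1] at hP'
    rw [dprim_eq hP']
    funext τ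
    simp only [Pi.smul_apply, smul_eq_mul, Function.iterate_succ_apply', pow_succ]
    ring

end

end Fermat.Agent.S22
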