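import Fermat.Agent.S22.Defs

set_option autoImplicit false

namespace Fermat.Agent.S22

open UpperHalfPlane Polynomial CongruenceSubgroup Matrix.SpecialLinearGroup
open scoped MatrixGroups ModularForm Manifold

noncomputable section

/-! ## B. the polynomial action -/

/-- The `j`-th building block of `polyAct`. -/
def polyActTerm (n : ℕ) (g : GL (Fin 2) ℝ) (j : ℕ) : ℂ[X] :=
  (C ((g 0 0 : ℝ) : ℂ) * X + C ((g 0 1 : ℝ) : ℂ)) ^ j *
      (C ((g 1 0 : ℝ) : ℂ) * X + C ((g 1 1 : ℝ) : ℂ)) ^ (n - j)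

theorem polyAct_apply (n : ℕ) (g : GL (Fin 2) ℝ) (P : ℂ[X]) :
    polyAct n g P = ∑ j ∈ Finset.range (n + 1), P.coeff j • polyActTerm n g j := rfl

theorem natDegree_polyActTerm_le (n : ℕ) (g : GL (Fin 2) ℝ) {j : ℕ} (hj : j ≤ n) :
    (polyActTerm n g j).natDegree ≤ n := by
  unfold polyActTerm
  refine natDegree_mul_le.trans ?_
  have h1 : ((C ((g 0 0 : ℝ) : ℂ) * X + C ((g 0 1 : ℝ) : ℂ)) ^ j).natDegree ≤ j := by
    refine (natDegree_pow_le).trans ?_
    calc j * _ ≤ j * 1 := Nat.mul_le_mul_left _ (natDegree_linear_le)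
      _ = j := mul_one j
  have h2 : ((C ((g 1 0 : ℝ) : ℂ) * X + C ((g 1 1 : ℝ) : ℂ)) ^ (n - j)).natDegree ≤ n - j := by
    refine (natDegree_pow_le).trans ?_
    calc (n - j) * _ ≤ (n - j) * 1 := Nat.mul_le_mul_left _ (natDegree_linear_le)
      _ = n - j := mul_one _
  omega

theorem natDegree_polyAct_le (n : ℕ) (g : GL (Fin 2) ℝ) (P : ℂ[X]) :
    (polyAct n g P).natDegree ≤ n := by
  rw [polyAct_apply]
  refine natDegree_sum_le_of_forall_le _ _ fun j hj => ?_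
  refine (natDegree_smul_le _ _).trans (natDegree_polyActTerm_le n g ?_)
  rw [Finset.mem_range] at hj
  omega

theorem eval_polyActTerm (n : ℕ) (g : GL (Fin 2) ℝ) (j : ℕ) (z : ℂ) :
    (polyActTerm n g j).eval z = (num g z) ^ j * (denom g z) ^ (n - j) := by
  simp [polyActTerm, num, denom]

theorem eval_polyAct (n : ℕ) {g : GL (Fin 2) ℝ} (hg : 0 < g.det.val) {P : ℂ[X]}
    (hP : P.natDegree ≤ n) (x : ℍ) :
    (polyAct n g P).eval (x : ℂ) = (denom g x) ^ n * P.eval ((g • x : ℍ) : ℂ) := by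
  rw [polyAct_apply, eval_finsetSum, coe_smul_of_det_pos hg,
    Polynomial.eval_eq_sum_range' (Nat.lt_succ_of_le hP), Finset.mul_sum]
  refine Finset.sum_congr rfl fun j hj => ?_
  rw [Finset.mem_range] at hj
  have hd : denom g x ≠ 0 := denom_ne_zero g x
  have hn : n = j + (n - j) := by omega
  rw [eval_smul, smul_eq_mul, eval_polyActTerm, div_pow]
  conv_rhs => rw [hn, pow_add]
  field_simp

theorem eq_of_eval_eq_on_upperHalfPlane {P Q : ℂ[X]}
    (h : ∀ x : ℍ, P.eval (x : ℂ) = Q.eval (x : ℂ)) : P = Q := by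
  apply Polynomial.eq_of_infinite_eval_eq
  refine Set.infinite_of_injective_forall_mem (f := fun m : ℕ => ((m : ℂ) + Complex.I)) ?_ ?_
  · intro a b hab
    simpa using hab
  · intro m
    exact h ⟨(m : ℂ) + Complex.I, by simp⟩

theorem det_mul_pos {g g' : GL (Fin 2) ℝ} (hg : 0 < g.det.val) (hg' : 0 < g'.det.val) :
    0 < (g * g').det.val := by
  rw [map_mul, Units.val_mul]
  exact mul_pos hg hg'

theorem polyAct_mul (n : ℕ) {g g' : GL (Fin 2) ℝ} (hg : 0 < g.det.val) (hg' : 0 < g'.det.val)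
    {P : ℂ[X]} (hP : P.natDegree ≤ n) :
    polyAct n (g * g') P = polyAct n g' (polyAct n g P) := by
  apply eq_of_eval_eq_on_upperHalfPlane
  intro x
  rw [eval_polyAct n (det_mul_pos hg hg') hP, eval_polyAct n hg' (natDegree_polyAct_le n g P),
    eval_polyAct n hg hP, mul_smul, denom_cocycle g g' x.im_ne_zero,
    ← coe_smul_of_det_pos hg' x, mul_pow]
  ring

theorem polyAct_one (n : ℕ) {P : ℂ[X]} (hP : P.natDegree ≤ n) : polyAct n 1 P = P := by
  apply eq_of_eval_eq_on_upperHalfPlane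
  intro x
  rw [eval_polyAct n (by simp) hP, one_smul]
  simp [denom]

theorem isIntegralMat_mapGL (γ : SL(2, ℤ)) : IsIntegralMat (mapGL ℝ γ) := by
  intro i j
  exact ⟨γ i j, by simp [mapGL_coe_matrix]⟩

theorem isIntegralMat_one : IsIntegralMat 1 := by
  intro i j
  by_cases h : i = j
  · exact ⟨1, by simp [h]⟩
  · exact ⟨0, by simp [h]⟩

theorem isIntegralMat_heckeMatrix (p j : ℕ) : IsIntegralMat (ModularForm.heckeMatrix p j) := by
  rcases eq_or_ne p 0 with rfl | hp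
  · rw [ModularForm.heckeMatrix_zero]; exact isIntegralMat_one
  · intro i k
    have h := ModularForm.val_heckeMatrix hp j
    fin_cases i <;> fin_cases k
    · exact ⟨1, by simp [h]⟩
    · exact ⟨j, by simp [h]⟩
    · exact ⟨0, by simp [h]⟩
    · exact ⟨p, by simp [h]⟩

theorem isIntegralMat_heckeDiagMatrix (p : ℕ) : IsIntegralMat (ModularForm.heckeDiagMatrix p) := by
  rcases eq_or_ne p 0 with rfl | hp
  · rw [ModularForm.heckeDiagMatrix_zero]; exact isIntegralMat_one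
  · intro i k
    have h := ModularForm.val_heckeDiagMatrix hp
    fin_cases i <;> fin_cases k
    · exact ⟨p, by simp [h]⟩
    · exact ⟨0, by simp [h]⟩
    · exact ⟨0, by simp [h]⟩
    · exact ⟨1, by simp [h]⟩

theorem coeff_polyAct_int (n : ℕ) {g : GL (Fin 2) ℝ} (hg : IsIntegralMat g) :
    ∃ A : ℕ → ℕ → ℤ, ∀ (P : ℂ[X]) (i : ℕ),
      (polyAct n g P).coeff i = ∑ j ∈ Finset.range (n + 1), (A i j : ℂ) * P.coeff j := by
  choose z hz using hg
  let T : ℕ → ℤ[X] := fun j =>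
    (C (z 0 0) * X + C (z 0 1)) ^ j * (C (z 1 0) * X + C (z 1 1)) ^ (n - j)
  have hT : ∀ j, polyActTerm n g j = (T j).map (Int.castRingHom ℂ) := by
    intro j
    simp [polyActTerm, T, hz]
  refine ⟨fun i j => (T j).coeff i, fun P i => ?_⟩
  rw [polyAct_apply, finsetSum_coeff]
  refine Finset.sum_congr rfl fun j _ => ?_
  rw [coeff_smul, smul_eq_mul, hT, coeff_map, mul_comm]
  simp

/-- `S(α) (X - α τ)^j = a^j d^(n-j) (X - τ)^j` for upper triangular `α`. -/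
theorem polyAct_X_sub_C_pow_upper (n : ℕ) (α : GL (Fin 2) ℝ) (hα : α 1 0 = 0) (ha : 0 < α 0 0)
    (hd : 0 < α 1 1) (τ : ℍ) {j : ℕ} (hj : j ≤ n) :
    polyAct n α ((X - C ((α • τ : ℍ) : ℂ)) ^ j) =
      C ((((α 0 0 : ℝ) : ℂ)) ^ j * (((α 1 1 : ℝ) : ℂ)) ^ (n - j)) * (X - C (τ : ℂ)) ^ j := by
  have hdet : 0 < α.det.val := by
    rw [Matrix.GeneralLinearGroup.val_det_apply, Matrix.det_fin_two, hα, mul_zero, sub_zero]
    exact mul_pos ha hd
  have hdeg : ((X - C ((α • τ : ℍ) : ℂ)) ^ j).natDegree ≤ n := by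
    refine (natDegree_pow_le).trans ?_
    rw [natDegree_X_sub_C, mul_one]
    exact hj
  apply eq_of_eval_eq_on_upperHalfPlane
  intro x
  have hd' : ((α 1 1 : ℝ) : ℂ) ≠ 0 := by exact_mod_cast hd.ne'
  have hden : ∀ y : ℍ, denom α y = ((α 1 1 : ℝ) : ℂ) := by
    intro y; simp [denom, hα]
  rw [eval_polyAct n hdet hdeg, coe_smul_of_det_pos hdet, coe_smul_of_det_pos hdet, hden, hden]
  simp only [eval_pow, eval_sub, eval_X, eval_C, eval_mul, num]
  have hn : n = j + (n - j) := by omega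
  conv_lhs => rw [hn, pow_add]
  have key : (((α 0 0 : ℝ) : ℂ) * (x : ℂ) + ((α 0 1 : ℝ) : ℂ)) / ((α 1 1 : ℝ) : ℂ) -
      (((α 0 0 : ℝ) : ℂ) * (τ : ℂ) + ((α 0 1 : ℝ) : ℂ)) / ((α 1 1 : ℝ) : ℂ) =
      ((α 0 0 : ℝ) : ℂ) * ((x : ℂ) - (τ : ℂ)) / ((α 1 1 : ℝ) : ℂ) := by
    field_simp
    ring
  rw [key, div_pow, mul_pow]
  field_simp

end

end Fermat.Agent.S22
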