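import Fermat.Agent.S22.DecayPrim
import Fermat.Agent.S22.PolyAct

set_option autoImplicit false

namespace Fermat.Agent.S22

open UpperHalfPlane Polynomial CongruenceSubgroup Matrix.SpecialLinearGroup
open scoped MatrixGroups ModularForm Manifold

noncomputable section

/-! ## C. the Eichler polynomial -/

theorem natDegree_eichlerPoly_le (n : ℕ) (f : ℍ → ℂ) (τ : ℍ) :
    (eichlerPoly n f τ).natDegree ≤ n := by
  unfold eichlerPoly
  refine natDegree_sum_le_of_forall_le _ _ fun m _ => ?_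
  refine (natDegree_C_mul_le _ _).trans ?_
  refine natDegree_pow_le.trans ?_
  rw [natDegree_X_sub_C, mul_one]
  exact Nat.sub_le n m

theorem eval_self_eichlerPoly (n : ℕ) (f : ℍ → ℂ) (τ : ℍ) :
    (eichlerPoly n f τ).eval (τ : ℂ) = (n.factorial : ℂ) * (dprim^[n + 1] f) τ := by
  unfold eichlerPoly
  rw [eval_finsetSum, Finset.sum_eq_single n]
  · simp [Nat.descFactorial_self]
  · intro m hm hmn
    have hlt : m < n := lt_of_le_of_ne (Nat.lt_succ_iff.mp (Finset.mem_range.mp hm)) hmn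
    have : n - m ≠ 0 := by omega
    simp [this]
  · intro h
    exact absurd (Finset.mem_range.mpr (Nat.lt_succ_self n)) h

theorem EPAux.eval_eichlerPoly (n : ℕ) (f : ℍ → ℂ) (τ : ℍ) (x : ℂ) :
    (eichlerPoly n f τ).eval x = ∑ m ∈ Finset.range (n + 1),
      (n.descFactorial m : ℂ) * (dprim^[m + 1] f) τ * (x - (τ : ℂ)) ^ (n - m) := by
  unfold eichlerPoly
  rw [eval_finsetSum]
  refine Finset.sum_congr rfl fun m _ => ?_
  simp

theorem hasDerivAt_eval_eichlerPoly (n : ℕ) {h : ℝ} (hh : 0 < h) {f : ℍ → ℂ} (hf : IsDecayHolo h f)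
    (x : ℂ) (τ : ℍ) :
    HasDerivAt (fun z : ℂ => (eichlerPoly n f (ofComplex z)).eval x)
      (f τ * (x - τ) ^ n) (τ : ℂ) := by
  -- the telescoping sequence
  set a : ℕ → ℂ := fun m => (n.descFactorial m : ℂ) * (dprim^[m] f) τ * (x - (τ : ℂ)) ^ (n - m)
    with ha
  have hsum : f τ * (x - τ) ^ n = ∑ m ∈ Finset.range (n + 1), (a m - a (m + 1)) := by
    rw [Finset.sum_range_sub']
    simp [ha]
  rw [hsum]
  have hev : (fun z : ℂ => (eichlerPoly n f (ofComplex z)).eval x) =ᶠ[nhds (τ : ℂ)]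
      fun z => ∑ m ∈ Finset.range (n + 1),
        (n.descFactorial m : ℂ) * ((dprim^[m + 1] f) ∘ ofComplex) z * (x - z) ^ (n - m) := by
    have hopen : {z : ℂ | 0 < z.im} ∈ nhds (τ : ℂ) :=
      (isOpen_lt continuous_const Complex.continuous_im).mem_nhds τ.im_pos
    filter_upwards [hopen] with z hz
    rw [EPAux.eval_eichlerPoly]
    refine Finset.sum_congr rfl fun m _ => ?_
    simp only [Function.comp_apply]
    rw [ofComplex_apply_of_im_pos hz]
  refine HasDerivAt.congr_of_eventuallyEq ?_ hev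
  refine HasDerivAt.fun_sum fun m hm => ?_
  have hm' : m ≤ n := Nat.lt_succ_iff.mp (Finset.mem_range.mp hm)
  have hprim : HasDerivAt ((dprim^[m + 1] f) ∘ ofComplex) ((dprim^[m] f) τ) (τ : ℂ) := by
    rw [Function.iterate_succ_apply']
    exact (isDecayPrim_dprim hh (isDecayHolo_dprim_iterate hh hf m)).1 τ
  have hpow : HasDerivAt (fun z : ℂ => (x - z) ^ (n - m))
      ((n - m : ℕ) * (x - (τ : ℂ)) ^ (n - m - 1) * (-1)) (τ : ℂ) := by
    have := ((hasDerivAt_id (τ : ℂ)).const_sub x).fun_pow (n - m)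
    simpa using this
  have h1 : HasDerivAt (fun z : ℂ =>
      (n.descFactorial m : ℂ) * ((dprim^[m + 1] f) ∘ ofComplex) z * (x - z) ^ (n - m)) _ (τ : ℂ) :=
    (hprim.const_mul (n.descFactorial m : ℂ)).fun_mul hpow
  refine h1.congr_deriv ?_
  simp only [ha, Function.comp_apply, ofComplex_apply]
  rcases Nat.eq_or_lt_of_le hm' with rfl | hlt
  · simp
  · have e1 : n - m - 1 = n - (m + 1) := by omega
    have e2 : (n.descFactorial (m + 1) : ℂ) = ((n - m : ℕ) : ℂ) * (n.descFactorial m : ℂ) := by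
      rw [Nat.descFactorial_succ]; push_cast; ring
    rw [e1, e2]
    ring

theorem EPAux.isOpen_im_pos_mem_nhds (τ : ℍ) : {z : ℂ | 0 < z.im} ∈ nhds (τ : ℂ) :=
  (isOpen_lt continuous_const Complex.continuous_im).mem_nhds τ.im_pos

theorem EPAux.det_eq_entries (g : GL (Fin 2) ℝ) :
    ((g.det.val : ℝ) : ℂ) = ((g 0 0 : ℝ) : ℂ) * ((g 1 1 : ℝ) : ℂ) - ((g 0 1 : ℝ) : ℂ) * ((g 1 0 : ℝ) : ℂ) := by
  rw [Matrix.GeneralLinearGroup.val_det_apply, Matrix.det_fin_two]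
  push_cast
  rfl

theorem EPAux.hasDerivAt_coe_smul_ofComplex (g : GL (Fin 2) ℝ) (hg : 0 < g.det.val) (τ : ℍ) :
    HasDerivAt (fun z : ℂ => ((g • ofComplex z : ℍ) : ℂ))
      (((g.det.val : ℝ) : ℂ) / (denom g τ) ^ 2) (τ : ℂ) := by
  have hev : (fun z : ℂ => ((g • ofComplex z : ℍ) : ℂ)) =ᶠ[nhds (τ : ℂ)]
      fun z => num g z / denom g z := by
    filter_upwards [EPAux.isOpen_im_pos_mem_nhds τ] with z hz
    rw [coe_smul_of_det_pos hg, ofComplex_apply_of_im_pos hz]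
  refine HasDerivAt.congr_of_eventuallyEq ?_ hev
  have hnum : HasDerivAt (fun z : ℂ => num g z) ((g 0 0 : ℝ) : ℂ) (τ : ℂ) := by
    unfold num
    simpa using ((hasDerivAt_id (τ : ℂ)).const_mul ((g 0 0 : ℝ) : ℂ)).add_const ((g 0 1 : ℝ) : ℂ)
  have hden : HasDerivAt (fun z : ℂ => denom g z) ((g 1 0 : ℝ) : ℂ) (τ : ℂ) := by
    unfold denom
    simpa using ((hasDerivAt_id (τ : ℂ)).const_mul ((g 1 0 : ℝ) : ℂ)).add_const ((g 1 1 : ℝ) : ℂ)
  have := hnum.fun_div hden (denom_ne_zero g τ)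
  refine this.congr_deriv ?_
  rw [EPAux.det_eq_entries]
  simp only [num, denom]
  ring

theorem EPAux.coe_smul_sub_coe_smul (g : GL (Fin 2) ℝ) (hg : 0 < g.det.val) (x τ : ℍ) :
    ((g • x : ℍ) : ℂ) - ((g • τ : ℍ) : ℂ) =
      ((g.det.val : ℝ) : ℂ) * ((x : ℂ) - τ) / (denom g x * denom g τ) := by
  rw [coe_smul_of_det_pos hg, coe_smul_of_det_pos hg, EPAux.det_eq_entries]
  have h1 := denom_ne_zero g x
  have h2 := denom_ne_zero g τ
  field_simp
  simp only [num, denom]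
  ring

theorem hasDerivAt_eval_polyAct_eichlerPoly (n : ℕ) {h : ℝ} (hh : 0 < h) {f : ℍ → ℂ}
    (hf : IsDecayHolo h f) (g : GL (Fin 2) ℝ) (hg : 0 < g.det.val) (x τ : ℍ) :
    HasDerivAt (fun z : ℂ => (polyAct n g (eichlerPoly n f (g • ofComplex z))).eval (x : ℂ))
      ((f ∣[(n : ℤ) + 2] g) τ * ((x : ℂ) - τ) ^ n) (τ : ℂ) := by
  have hfun : (fun z : ℂ => (polyAct n g (eichlerPoly n f (g • ofComplex z))).eval (x : ℂ)) =
      fun z => (denom g x) ^ n *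
        ((fun w : ℂ => (eichlerPoly n f (ofComplex w)).eval ((g • x : ℍ) : ℂ)) ∘
          (fun z : ℂ => ((g • ofComplex z : ℍ) : ℂ))) z := by
    funext z
    rw [eval_polyAct n hg (natDegree_eichlerPoly_le n f _)]
    simp only [Function.comp_apply, ofComplex_apply]
  rw [hfun]
  have hγ := EPAux.hasDerivAt_coe_smul_ofComplex g hg τ
  have hΦ := hasDerivAt_eval_eichlerPoly n hh hf ((g • x : ℍ) : ℂ) (g • τ)
  have hγτ : ((g • ofComplex (τ : ℂ) : ℍ) : ℂ) = ((g • τ : ℍ) : ℂ) := by rw [ofComplex_apply]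
  have hcomp := HasDerivAt.comp (τ : ℂ) (hγτ ▸ hΦ) hγ
  have := hcomp.const_mul ((denom g x) ^ n)
  refine this.congr_deriv ?_
  rw [ofComplex_apply, EPAux.coe_smul_sub_coe_smul g hg x τ, ModularForm.slash_apply, UpperHalfPlane.σ,
    if_pos hg]
  simp only [ContinuousAlgEquiv.refl_apply, abs_of_pos hg]
  have h1 := denom_ne_zero g x
  have h2 := denom_ne_zero g τ
  have hdet : ((g.det.val : ℝ) : ℂ) ≠ 0 := by exact_mod_cast hg.ne'
  have hz : (((g.det.val : ℝ) : ℂ)) ^ ((n : ℤ) + 2 - 1) = ((g.det.val : ℝ) : ℂ) ^ (n + 1) := by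
    rw [show (n : ℤ) + 2 - 1 = ((n + 1 : ℕ) : ℤ) by push_cast; ring, zpow_natCast]
  have hz2 : (denom g τ) ^ (-((n : ℤ) + 2)) = ((denom g τ) ^ (n + 2))⁻¹ := by
    rw [zpow_neg, show (n : ℤ) + 2 = ((n + 2 : ℕ) : ℤ) by push_cast; ring, zpow_natCast]
  rw [hz, hz2, div_pow, mul_pow, mul_pow]
  field_simp
  ring

/-- A function on `ℂ` with zero derivative at every point of the upper half-plane is constant
there. -/
theorem EPAux.eq_of_hasDerivAt_zero {φ : ℂ → ℂ} (hφ : ∀ τ : ℍ, HasDerivAt φ 0 (τ : ℂ)) (τ₁ τ₂ : ℍ) :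
    φ τ₁ = φ τ₂ := by
  have hopen : IsOpen {z : ℂ | 0 < z.im} := isOpen_lt continuous_const Complex.continuous_im
  have hconn : IsPreconnected {z : ℂ | 0 < z.im} := (convex_halfSpace_im_gt 0).isPreconnected
  have hd : ∀ z ∈ {z : ℂ | 0 < z.im}, HasDerivAt φ 0 z := fun z hz => hφ ⟨z, hz⟩
  refine hopen.is_const_of_deriv_eq_zero hconn (fun z hz => (hd z hz).differentiableAt.differentiableWithinAt)
    (fun z hz => (hd z hz).deriv) τ₁.im_pos τ₂.im_pos

/-- both sides are primitives of `(f∣g)(τ) (X-τ)^n` -/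
theorem exists_const_polyAct_eichlerPoly (n : ℕ) {h h' : ℝ} (hh : 0 < h) (hh' : 0 < h') {f : ℍ → ℂ}
    (hf : IsDecayHolo h f) (g : GL (Fin 2) ℝ) (hg : 0 < g.det.val)
    (hfg : IsDecayHolo h' (f ∣[(n : ℤ) + 2] g)) :
    ∃ Q : ℂ[X], Q.natDegree ≤ n ∧ ∀ τ : ℍ,
      polyAct n g (eichlerPoly n f (g • τ)) = eichlerPoly n (f ∣[(n : ℤ) + 2] g) τ + Q := by
  refine ⟨polyAct n g (eichlerPoly n f (g • I)) - eichlerPoly n (f ∣[(n : ℤ) + 2] g) I, ?_, ?_⟩
  · exact (natDegree_sub_le _ _).trans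
      (max_le (natDegree_polyAct_le n g _) (natDegree_eichlerPoly_le n _ _))
  · intro τ
    rw [← sub_eq_iff_eq_add']
    refine eq_of_eval_eq_on_upperHalfPlane fun x => ?_
    have key : ∀ σ : ℍ, HasDerivAt (fun z : ℂ =>
        (polyAct n g (eichlerPoly n f (g • ofComplex z))).eval (x : ℂ) -
          (eichlerPoly n (f ∣[(n : ℤ) + 2] g) (ofComplex z)).eval (x : ℂ)) 0 (σ : ℂ) := by
      intro σ
      have h1 := hasDerivAt_eval_polyAct_eichlerPoly n hh hf g hg x σ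
      have h2 := hasDerivAt_eval_eichlerPoly n hh' hfg (x : ℂ) σ
      have := h1.sub h2
      rwa [sub_self] at this
    have := EPAux.eq_of_hasDerivAt_zero key τ I
    simpa only [ofComplex_apply, eval_sub] using this

theorem polyAct_eichlerPoly_sub (n : ℕ) {h : ℝ} (hh : 0 < h) {f : ℍ → ℂ} (hf : IsDecayHolo h f)
    (g : GL (Fin 2) ℝ) (hg : 0 < g.det.val) (hfg : f ∣[(n : ℤ) + 2] g = f) (τ : ℍ) :
    polyAct n g (eichlerPoly n f (g • τ)) - eichlerPoly n f τ = periodPoly n f g := by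
  obtain ⟨Q, -, hQ⟩ := exists_const_polyAct_eichlerPoly n hh hh hf g hg (hfg.symm ▸ hf)
  rw [hfg] at hQ
  unfold periodPoly
  rw [hQ τ, hQ I]
  ring

theorem natDegree_periodPoly_le (n : ℕ) (f : ℍ → ℂ) (g : GL (Fin 2) ℝ) :
    (periodPoly n f g).natDegree ≤ n :=
  (natDegree_sub_le _ _).trans
    (max_le (natDegree_polyAct_le n g _) (natDegree_eichlerPoly_le n _ _))

theorem periodPoly_mul (n : ℕ) {h : ℝ} (hh : 0 < h) {f : ℍ → ℂ} (hf : IsDecayHolo h f)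
    (g g' : GL (Fin 2) ℝ) (hg : 0 < g.det.val) (hg' : 0 < g'.det.val)
    (hfg : f ∣[(n : ℤ) + 2] g = f) (hfg' : f ∣[(n : ℤ) + 2] g' = f) :
    periodPoly n f (g * g') = polyAct n g' (periodPoly n f g) + periodPoly n f g' := by
  have h1 := polyAct_eichlerPoly_sub n hh hf g hg hfg (g' • I)
  have h2 : polyAct n g (eichlerPoly n f (g • g' • I)) =
      periodPoly n f g + eichlerPoly n f (g' • I) := by
    rw [← h1]; ring
  conv_lhs => unfold periodPoly
  rw [mul_smul, polyAct_mul n hg hg' (natDegree_eichlerPoly_le n f _), h2, map_add]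
  unfold periodPoly
  ring

theorem eichlerPoly_add (n : ℕ) {h : ℝ} (hh : 0 < h) {f₁ f₂ : ℍ → ℂ} (h₁ : IsDecayHolo h f₁)
    (h₂ : IsDecayHolo h f₂) (τ : ℍ) :
    eichlerPoly n (f₁ + f₂) τ = eichlerPoly n f₁ τ + eichlerPoly n f₂ τ := by
  unfold eichlerPoly
  rw [← Finset.sum_add_distrib]
  refine Finset.sum_congr rfl fun m _ => ?_
  rw [dprim_iterate_add hh h₁ h₂ (m + 1), Pi.add_apply, mul_add, C_add, add_mul]

theorem eichlerPoly_smul (n : ℕ) {h : ℝ} (hh : 0 < h) {f : ℍ → ℂ} (hf : IsDecayHolo h f) (c : ℂ)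
    (τ : ℍ) : eichlerPoly n (c • f) τ = c • eichlerPoly n f τ := by
  unfold eichlerPoly
  rw [Finset.smul_sum]
  refine Finset.sum_congr rfl fun m _ => ?_
  rw [dprim_iterate_smul hh hf c (m + 1), Pi.smul_apply, smul_eq_mul, smul_eq_C_mul]
  simp only [map_mul]
  ring

theorem eichlerPoly_sum (n : ℕ) {h : ℝ} (hh : 0 < h) {ι : Type*} (s : Finset ι) {f : ι → ℍ → ℂ}
    (hf : ∀ i ∈ s, IsDecayHolo h (f i)) (τ : ℍ) :
    eichlerPoly n (∑ i ∈ s, f i) τ = ∑ i ∈ s, eichlerPoly n (f i) τ := by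
  unfold eichlerPoly
  rw [Finset.sum_comm]
  refine Finset.sum_congr rfl fun m _ => ?_
  rw [dprim_iterate_sum hh s hf (m + 1), Finset.sum_apply, Finset.mul_sum, map_sum,
    Finset.sum_mul]

/-- the slash action of an upper triangular matrix with positive diagonal -/
theorem EPAux.slash_upper (k : ℤ) (f : ℍ → ℂ) (α : GL (Fin 2) ℝ) (hα : α 1 0 = 0) (ha : 0 < α 0 0)
    (hd : 0 < α 1 1) :
    f ∣[k] α = ((((α 0 0 : ℝ) : ℂ)) ^ (k - 1) * (((α 1 1 : ℝ) : ℂ))⁻¹) • fun τ => f (α • τ) := by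
  have hdet : α.det.val = α 0 0 * α 1 1 := by
    rw [Matrix.GeneralLinearGroup.val_det_apply, Matrix.det_fin_two]
    have : (α : Matrix (Fin 2) (Fin 2) ℝ) 1 0 = 0 := hα
    rw [this]; ring
  have hpos : 0 < α.det.val := by rw [hdet]; exact mul_pos ha hd
  funext τ
  rw [ModularForm.slash_apply, UpperHalfPlane.σ, if_pos hpos]
  simp only [ContinuousAlgEquiv.refl_apply, abs_of_pos hpos, Pi.smul_apply, smul_eq_mul]
  have hden : denom α τ = ((α 1 1 : ℝ) : ℂ) := by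
    unfold denom
    have : (α : Matrix (Fin 2) (Fin 2) ℝ) 1 0 = 0 := hα
    rw [this]; simp
  have ha' : ((α 0 0 : ℝ) : ℂ) ≠ 0 := by exact_mod_cast ha.ne'
  have hd' : ((α 1 1 : ℝ) : ℂ) ≠ 0 := by exact_mod_cast hd.ne'
  rw [hden, hdet, Complex.ofReal_mul, mul_zpow, zpow_neg, zpow_sub_one₀ hd']
  field_simp

/-- exact compatibility with upper triangular matrices -/
theorem eichlerPoly_slash_upper (n : ℕ) {h : ℝ} (hh : 0 < h) {f : ℍ → ℂ} (hf : IsDecayHolo h f)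
    (α : GL (Fin 2) ℝ) (hα : α 1 0 = 0) (ha : 0 < α 0 0) (hd : 0 < α 1 1) (τ : ℍ) :
    eichlerPoly n (f ∣[(n : ℤ) + 2] α) τ = polyAct n α (eichlerPoly n f (α • τ)) := by
  have ha' : ((α 0 0 : ℝ) : ℂ) ≠ 0 := by exact_mod_cast ha.ne'
  have hd' : ((α 1 1 : ℝ) : ℂ) ≠ 0 := by exact_mod_cast hd.ne'
  have hh' : 0 < h * α 1 1 / α 0 0 := div_pos (mul_pos hh hd) ha
  have hcomp := isDecayHolo_comp_upper hf α hα ha hd
  rw [EPAux.slash_upper _ f α hα ha hd, eichlerPoly_smul n hh' hcomp]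
  unfold eichlerPoly
  rw [Finset.smul_sum, map_sum]
  refine Finset.sum_congr rfl fun m hm => ?_
  have hm' : m ≤ n := Nat.lt_succ_iff.mp (Finset.mem_range.mp hm)
  rw [dprim_iterate_comp_upper hh hf α hα ha hd (m + 1)]
  have hmul : (C ((n.descFactorial m : ℂ) * (dprim^[m + 1] f) (α • τ)) *
      (X - C ((α • τ : ℍ) : ℂ)) ^ (n - m) : ℂ[X]) =
      ((n.descFactorial m : ℂ) * (dprim^[m + 1] f) (α • τ)) • (X - C ((α • τ : ℍ) : ℂ)) ^ (n - m) := by
    rw [smul_eq_C_mul]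
  rw [hmul, map_smul, polyAct_X_sub_C_pow_upper n α hα ha hd τ (Nat.sub_le n m),
    smul_eq_C_mul, smul_eq_C_mul]
  have e1 : n - (n - m) = m := Nat.sub_sub_self hm'
  have key : (((α 0 0 : ℝ) : ℂ)) ^ ((n : ℤ) + 2 - 1) * (((α 1 1 : ℝ) : ℂ))⁻¹ *
      ((n.descFactorial m : ℂ) * ((((α 1 1 / α 0 0 : ℝ)) : ℂ)) ^ (m + 1) *
        (dprim^[m + 1] f) (α • τ)) =
      ((n.descFactorial m : ℂ) * (dprim^[m + 1] f) (α • τ)) *
        ((((α 0 0 : ℝ) : ℂ)) ^ (n - m) * (((α 1 1 : ℝ) : ℂ)) ^ (n - (n - m))) := by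
    rw [e1, show (n : ℤ) + 2 - 1 = ((n + 1 : ℕ) : ℤ) by push_cast; ring, zpow_natCast]
    push_cast
    have e2 : n + 1 = (n - m) + (m + 1) := by omega
    rw [e2, pow_add, div_pow]
    field_simp
    ring
  rw [← mul_assoc (C _) (C _), ← C_mul, ← mul_assoc (C _) (C _), ← C_mul, ← key]
  congr 2
  ring

end

end Fermat.Agent.S22
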